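import Fermat.Agent.S24.Alg.ChartPlace

/-!
# S24/A: separating the places over `y = 0` by an integral function.
-/

set_option autoImplicit false

noncomputable section

namespace Fermat.Agent.S24.Alg

open AlgebraicCurve IntermediateField KaehlerDifferential IsDedekindDomain

variable {K F : Type*} [Field K] [Field F] [Algebra K F]

namespace ApproxAux

/-- In a Dedekind domain, given a nonzero element `a` of a maximal ideal `w₀`, there is a nonzero
element of `w₀` lying in no other maximal ideal containing `a`. -/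
theorem exists_mem_not_mem {R : Type*} [CommRing R] [IsDedekindDomain R]
    (w₀ : HeightOneSpectrum R) {a : R} (ha : a ≠ 0) (ha₀ : a ∈ w₀.asIdeal) :
    ∃ b : R, b ≠ 0 ∧ b ∈ w₀.asIdeal ∧
      ∀ w : HeightOneSpectrum R, a ∈ w.asIdeal → w ≠ w₀ → b ∉ w.asIdeal := by
  classical
  have hI : Ideal.span {a} ≠ 0 := by
    rw [Ne, Ideal.zero_eq_bot, Ideal.span_singleton_eq_bot]
    exact ha
  have hfin : {w : HeightOneSpectrum R | w.asIdeal ∣ Ideal.span {a}}.Finite :=
    Ideal.finite_factors hI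
  have hmem : ∀ w : HeightOneSpectrum R, a ∈ w.asIdeal → w ∈ hfin.toFinset := by
    intro w hw
    rw [Set.Finite.mem_toFinset]
    exact Ideal.dvd_span_singleton.mpr hw
  obtain ⟨b, hb⟩ := IsDedekindDomain.exists_forall_sub_mem_ideal
    (s := hfin.toFinset) (fun w : HeightOneSpectrum R => w.asIdeal) (fun _ => 1)
    (fun w _ => w.prime) (fun w _ w' _ h heq => h (HeightOneSpectrum.ext heq))
    (fun w => if w.1 = w₀ then 0 else 1)
  have hb₀ : b ∈ w₀.asIdeal := by
    have h := hb w₀ (hmem w₀ ha₀)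
    simpa using h
  have hbw : ∀ w : HeightOneSpectrum R, a ∈ w.asIdeal → w ≠ w₀ → b ∉ w.asIdeal := by
    intro w hw hne hbw
    have h := hb w (hmem w hw)
    simp only [hne, if_false, pow_one] at h
    have h1 : (1 : R) ∈ w.asIdeal := by
      have := w.asIdeal.sub_mem hbw h
      simpa using this
    exact w.isPrime.ne_top ((Ideal.eq_top_iff_one _).mpr h1)
  by_cases hex : ∃ w : HeightOneSpectrum R, a ∈ w.asIdeal ∧ w ≠ w₀
  · obtain ⟨w, hw, hne⟩ := hex
    refine ⟨b, ?_, hb₀, hbw⟩
    rintro rfl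
    exact hbw w hw hne w.asIdeal.zero_mem
  · refine ⟨a, ha, ha₀, ?_⟩
    intro w hw hne
    exact absurd ⟨w, hw, hne⟩ hex

/-- The separating function, for a bundled chart. -/
theorem exists_separating [CharZero K] (C : Chart K F) (v : Place K F) (hv : 0 < v.ord C.y) :
    ∃ f : F, f ≠ 0 ∧ IsIntegral C.A f ∧ 0 < v.ord f ∧
      ∀ v' : Place K F, 0 < v'.ord C.y → v' ≠ v → v'.ord f = 0 := by
  classical
  obtain ⟨w₀, hw₀⟩ := C.exists_heightOneSpectrum v hv.le
  have hy₀ : C.yB ∈ w₀.asIdeal := by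
    rw [← C.ord_y_pos_iff w₀, hw₀]
    exact hv
  obtain ⟨b, hb0, hb₀, hbw⟩ := exists_mem_not_mem w₀ C.yB_ne_zero hy₀
  refine ⟨(b : F), ?_, b.2, ?_, ?_⟩
  · intro h
    exact hb0 (Subtype.ext h)
  · have h : 0 < (Place.ofHeightOneSpectrum (K := K) w₀).ord (algebraMap C.B F b) :=
      (ord_ofHeightOneSpectrum_pos_iff (K := K) (F := F) w₀ hb0).mpr hb₀
    rw [hw₀] at h
    exact h
  · intro v' hv1 hne
    obtain ⟨w', hw'⟩ := C.exists_heightOneSpectrum v' hv1.le
    have hy' : C.yB ∈ w'.asIdeal := by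
      rw [← C.ord_y_pos_iff w', hw']
      exact hv1
    have hne' : w' ≠ w₀ := by
      rintro rfl
      exact hne (hw'.symm.trans hw₀)
    have hnot : b ∉ w'.asIdeal := hbw w' hy' hne'
    have h1 : ¬ 0 < (Place.ofHeightOneSpectrum (K := K) w').ord (algebraMap C.B F b) := fun h =>
      hnot ((ord_ofHeightOneSpectrum_pos_iff (K := K) (F := F) w' hb0).mp h)
    have h2 : 0 ≤ (Place.ofHeightOneSpectrum (K := K) w').ord (algebraMap C.B F b) :=
      ord_ofHeightOneSpectrum_algebraMap_nonneg (K := K) (F := F) w' b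
    rw [hw'] at h1 h2
    exact le_antisymm (not_lt.mp h1) h2

end ApproxAux

/-- For a place `v` over `y = 0` there is a nonzero `f`, integral over `K[y]`, vanishing at `v`
and a unit at all other places over `y = 0`. -/
theorem exists_integral_separating [CharZero K] {y : F} (hy : IsCoord K y)
    (v : Place K F) (hv : 0 < v.ord y) :
    ∃ f : F, f ≠ 0 ∧ IsIntegral (Algebra.adjoin K {y}) f ∧ 0 < v.ord f ∧
      ∀ v' : Place K F, 0 < v'.ord y → v' ≠ v → v'.ord f = 0 :=
  ApproxAux.exists_separating (⟨y, hy⟩ : Chart K F) v hv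

end Fermat.Agent.S24.Alg
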