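import Fermat.Agent.S24.Alg.Residue

/-!
# S24/A: the fundamental identity `∑_{v | y = 0} ord_v(y) = [F : K(y)]`.
-/

set_option autoImplicit false

noncomputable section

namespace Fermat.Agent.S24.Alg

open AlgebraicCurve IntermediateField KaehlerDifferential IsDedekindDomain

variable {K F : Type*} [Field K] [Field F] [Algebra K F]

namespace FundamentalAux

open scoped IntermediateField.algebraAdjoinAdjoin

/-- If every residue class of `S` modulo the maximal ideal `q` (lying over `p`) is represented
by an element of `R`, then the inertia degree of `q` is one. -/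
theorem inertiaDeg_eq_one {R S : Type*} [CommRing R] [CommRing S] [Algebra R S]
    (p : Ideal R) [p.IsMaximal] (q : Ideal S) [q.IsMaximal] [q.LiesOver p]
    (h : ∀ s : S, ∃ r : R, s - algebraMap R S r ∈ q) : q.inertiaDeg R = 1 := by
  rw [Ideal.inertiaDeg_eq_of_isMaximal p q]
  let _ : Field (R ⧸ p) := Ideal.Quotient.field p
  have h1 : (1 : S ⧸ q) ≠ 0 := one_ne_zero
  rw [finrank_eq_one_iff_of_nonzero' (1 : S ⧸ q) h1]
  intro w
  obtain ⟨s, rfl⟩ := Ideal.Quotient.mk_surjective w
  obtain ⟨r, hr⟩ := h s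
  refine ⟨Ideal.Quotient.mk p r, ?_⟩
  rw [Algebra.smul_def, mul_one, Ideal.Quotient.algebraMap_mk_of_liesOver]
  exact (Ideal.Quotient.eq.mpr hr).symm

/-- The fundamental identity in the form: the sum of the multiplicities of the primes over `p`
in the factorisation of `p S` is the rank, provided all residue extensions are trivial. -/
theorem sum_count_eq_finrank {R S : Type*} [CommRing R] [IsDomain R] [CommRing S]
    [IsDedekindDomain S] [Algebra R S] [Module.Finite R S] [Module.Flat R S]
    (p : Ideal R) [p.IsMaximal] (hp : p.map (algebraMap R S) ≠ ⊥) [Fintype (p.primesOver S)]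
    (h : ∀ q ∈ p.primesOver S, ∀ s : S, ∃ r : R, s - algebraMap R S r ∈ q) :
    ∑ q : p.primesOver S,
      Multiset.count q.1 (UniqueFactorizationMonoid.normalizedFactors (p.map (algebraMap R S)))
        = Module.finrank R S := by
  rw [← Ideal.sum_ramification_inertia_eq_finrank p S]
  refine Finset.sum_congr rfl fun q _ => ?_
  have hq0 : q.1 ≠ ⊥ := by
    intro h0
    apply hp
    rw [eq_bot_iff, Ideal.map_le_iff_le_comap, ← h0]
    exact (Ideal.over_def q.1 p).le
  have : q.1.IsMaximal := q.2.1.isMaximal hq0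
  rw [inertiaDeg_eq_one p q.1 (h q.1 q.2), mul_one,
    Ideal.IsDedekindDomain.ramificationIdx_eq_normalizedFactors_count p q.1 hp]

variable (C : Chart K F)

theorem finrank_AB [CharZero K] : Module.finrank C.A C.B = Module.finrank K⟮C.y⟯ F :=
  (IsFractionRing.finrank_eq C.A K⟮C.y⟯ C.B F).symm

theorem polyEquiv_X : C.polyEquiv Polynomial.X = C.yA := by
  apply Subtype.ext
  rw [Chart.coe_polyEquiv, Polynomial.aeval_X, Chart.coe_yA]

theorem irreducible_yA : Irreducible C.yA := by
  rw [← polyEquiv_X C]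
  exact (MulEquiv.irreducible_iff C.polyEquiv).mpr Polynomial.irreducible_X

theorem isMaximal_span_yA : (Ideal.span {C.yA}).IsMaximal :=
  PrincipalIdealRing.isMaximal_of_irreducible (irreducible_yA C)

theorem map_span_yA : (Ideal.span {C.yA}).map (algebraMap C.A C.B) = Ideal.span {C.yB} := by
  rw [Ideal.map_span, Set.image_singleton]
  rfl

theorem map_span_yA_ne_bot : (Ideal.span {C.yA}).map (algebraMap C.A C.B) ≠ ⊥ := by
  rw [map_span_yA, Ne, Ideal.span_singleton_eq_bot]
  exact C.yB_ne_zero

/-- Every element of `B` is congruent to a constant modulo a maximal ideal. -/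
theorem exists_sub_mem [IsAlgClosed K] [CharZero K] (w : HeightOneSpectrum C.B) (b : C.B) :
    ∃ r : C.A, b - algebraMap C.A C.B r ∈ w.asIdeal := by
  obtain ⟨a, ha⟩ := exists_sub_algebraMap_ord_pos C.isCoord
    (Place.ofHeightOneSpectrum (K := K) w) (algebraMap_mem_ofHeightOneSpectrum w b)
  refine ⟨algebraMap K C.A a, ?_⟩
  have hcoe : algebraMap C.B F (b - algebraMap C.A C.B (algebraMap K C.A a)) =
      algebraMap C.B F b - algebraMap K F a := by
    rw [map_sub]
    rfl
  by_cases h0 : b - algebraMap C.A C.B (algebraMap K C.A a) = 0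
  · rw [h0]
    exact Ideal.zero_mem _
  · rcases ha with ha | ha
    · exfalso
      apply h0
      apply FaithfulSMul.algebraMap_injective C.B F
      rw [hcoe, ha, sub_self, map_zero]
    · rw [← hcoe] at ha
      exact (ord_ofHeightOneSpectrum_pos_iff w h0).mp ha

theorem ne_bot_of_mem_primesOver {q : Ideal C.B}
    (hq : q ∈ (Ideal.span {C.yA}).primesOver C.B) : q ≠ ⊥ := by
  intro h0
  apply map_span_yA_ne_bot C
  have := hq.2
  rw [eq_bot_iff, Ideal.map_le_iff_le_comap, ← h0]
  exact (Ideal.over_def q (Ideal.span {C.yA})).le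

theorem yB_mem_of_mem_primesOver {q : Ideal C.B}
    (hq : q ∈ (Ideal.span {C.yA}).primesOver C.B) : C.yB ∈ q := by
  have := hq.2
  have h1 : C.yA ∈ q.under C.A := by
    rw [← Ideal.over_def q (Ideal.span {C.yA})]
    exact Ideal.subset_span rfl
  exact h1

theorem mem_primesOver_of_yB_mem (w : HeightOneSpectrum C.B) (hw : C.yB ∈ w.asIdeal) :
    w.asIdeal ∈ (Ideal.span {C.yA}).primesOver C.B := by
  refine ⟨w.isPrime, ⟨?_⟩⟩
  refine (isMaximal_span_yA C).eq_of_le ?_ ?_
  · have : (w.asIdeal.under C.A).IsPrime := Ideal.IsPrime.under C.A w.asIdeal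
    exact this.ne_top
  · rw [Ideal.span_le, Set.singleton_subset_iff]
    exact hw

/-- The maximal ideal of `B` attached to a prime over `(y)`. -/
def toSpec (q : (Ideal.span {C.yA}).primesOver C.B) :
    {w : HeightOneSpectrum C.B // C.yB ∈ w.asIdeal} :=
  ⟨⟨q.1, q.2.1, ne_bot_of_mem_primesOver C q.2⟩, yB_mem_of_mem_primesOver C q.2⟩

theorem toSpec_bijective : Function.Bijective (toSpec C) := by
  constructor
  · intro q q' h
    apply Subtype.ext
    have := congrArg (fun w : {w : HeightOneSpectrum C.B // C.yB ∈ w.asIdeal} => w.1.asIdeal) h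
    exact this
  · intro w
    exact ⟨⟨w.1.asIdeal, mem_primesOver_of_yB_mem C w.1 w.2⟩, rfl⟩

theorem ord_toSpec [CharZero K] (q : (Ideal.span {C.yA}).primesOver C.B) :
    (Place.ofHeightOneSpectrum (K := K) (toSpec C q).1).ord C.y =
      (Multiset.count q.1 (UniqueFactorizationMonoid.normalizedFactors
        ((Ideal.span {C.yA}).map (algebraMap C.A C.B))) : ℤ) := by
  have h1 := ord_ofHeightOneSpectrum_algebraMap (K := K) (F := F) (toSpec C q).1 C.yB_ne_zero
  have h2 : (Ideal.span {C.yB} : Ideal C.B) ≠ 0 := by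
    rw [← map_span_yA]
    exact map_span_yA_ne_bot C
  rw [Ideal.count_associates_factors_eq h2 (toSpec C q).1.isPrime (toSpec C q).1.ne_bot] at h1
  rw [map_span_yA]
  exact h1

/-- The fundamental identity for a chart. -/
theorem finsum_ord_zeros_chart [IsAlgClosed K] [CharZero K] :
    ∑ᶠ v : {v : Place K F // 0 < v.ord C.y}, v.1.ord C.y = (Module.finrank K⟮C.y⟯ F : ℤ) := by
  have hmax : (Ideal.span {C.yA}).IsMaximal := isMaximal_span_yA C
  have hbij : Function.Bijective (fun q => C.zeroEquiv (toSpec C q)) :=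
    C.zeroEquiv.bijective.comp (toSpec_bijective C)
  have hfin : Finite ((Ideal.span {C.yA}).primesOver C.B) := by
    have := C.finite_zeros
    exact Finite.of_injective _ hbij.injective
  let _ : Fintype ((Ideal.span {C.yA}).primesOver C.B) := Fintype.ofFinite _
  have hsum := sum_count_eq_finrank (Ideal.span {C.yA}) (map_span_yA_ne_bot C)
    (fun q hq b => exists_sub_mem C ⟨q, hq.1, ne_bot_of_mem_primesOver C hq⟩ b)
  rw [← finsum_eq_of_bijective (f := fun q => (C.zeroEquiv (toSpec C q)).1.ord C.y) _ hbij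
    (fun q => rfl), finsum_eq_sum_of_fintype, ← finrank_AB C, ← hsum, Nat.cast_sum]
  refine Finset.sum_congr rfl fun q _ => ?_
  rw [Chart.zeroEquiv_apply]
  exact ord_toSpec C q

end FundamentalAux

theorem finite_zeros [IsAlgClosed K] [CharZero K] {y : F} (hy : IsCoord K y) :
    Finite {v : Place K F // 0 < v.ord y} :=
  Chart.finite_zeros ⟨y, hy⟩

/-- **Fundamental identity** for the zeros of a coordinate. -/
theorem finsum_ord_zeros [IsAlgClosed K] [CharZero K] {y : F} (hy : IsCoord K y) :
    ∑ᶠ v : {v : Place K F // 0 < v.ord y}, v.1.ord y = (Module.finrank K⟮y⟯ F : ℤ) :=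
  FundamentalAux.finsum_ord_zeros_chart ⟨y, hy⟩

end Fermat.Agent.S24.Alg
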