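import Fermat.Agent.S24.Alg.Defs

/-!
# S24/A: the norm as the product over a full set of embeddings.
-/

set_option autoImplicit false

noncomputable section

namespace Fermat.Agent.S24.Alg

open AlgebraicCurve IntermediateField KaehlerDifferential

namespace NormEmbAux

/-- The equalizer of two ring homomorphisms `F → L` agreeing on `K`, as an intermediate field
of `F / K`. -/
def eqField {K F L : Type*} [Field K] [Field F] [Algebra K F] [Field L]
    (τ τ' : F →+* L)
    (hK : ∀ a : K, τ (algebraMap K F a) = τ' (algebraMap K F a)) : IntermediateField K F where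
  carrier := {z | τ z = τ' z}
  mul_mem' := by
    intro a b ha hb
    change τ a = τ' a at ha
    change τ b = τ' b at hb
    change τ (a * b) = τ' (a * b)
    rw [map_mul, map_mul, ha, hb]
  one_mem' := by
    change τ 1 = τ' 1
    rw [map_one, map_one]
  add_mem' := by
    intro a b ha hb
    change τ a = τ' a at ha
    change τ b = τ' b at hb
    change τ (a + b) = τ' (a + b)
    rw [map_add, map_add, ha, hb]
  zero_mem' := by
    change τ 0 = τ' 0
    rw [map_zero, map_zero]
  algebraMap_mem' := fun a => hK a
  inv_mem' := by
    intro a ha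
    change τ a = τ' a at ha
    change τ a⁻¹ = τ' a⁻¹
    rw [map_inv₀, map_inv₀, ha]

theorem mem_eqField {K F L : Type*} [Field K] [Field F] [Algebra K F] [Field L]
    (τ τ' : F →+* L)
    (hK : ∀ a : K, τ (algebraMap K F a) = τ' (algebraMap K F a)) (z : F) :
    z ∈ eqField τ τ' hK ↔ τ z = τ' z :=
  Iff.rfl

end NormEmbAux

/-- Two ring homomorphisms `F → L` which agree on `K` and on `y` agree on `K(y)`. -/
theorem agree_on_adjoin {K F L : Type*} [Field K] [Field F] [Algebra K F] [Field L]
    (τ τ' : F →+* L) (y : F)
    (hK : ∀ a : K, τ (algebraMap K F a) = τ' (algebraMap K F a)) (hy : τ y = τ' y)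
    (a : K⟮y⟯) : τ (a : F) = τ' (a : F) := by
  have hle : K⟮y⟯ ≤ NormEmbAux.eqField τ τ' hK := by
    rw [IntermediateField.adjoin_simple_le_iff]
    exact hy
  exact (NormEmbAux.mem_eqField τ τ' hK (a : F)).mp (hle a.2)

/-- If `τ i` (`i : I`) are `[F : k]` pairwise distinct embeddings of `F` into a field `L` which
agree on `k`, then the product of the `τ i f` is the image of the norm of `f`. -/
theorem prod_eq_map_norm {k F L : Type*} [Field k] [Field F] [Algebra k F]
    [FiniteDimensional k F] [CharZero k] [Field L] {I : Type*} [Fintype I]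
    (τ : I → F →+* L) (hinj : Function.Injective τ)
    (hcard : Fintype.card I = Module.finrank k F)
    (hagree : ∀ (i i' : I) (a : k), τ i (algebraMap k F a) = τ i' (algebraMap k F a))
    (i₀ : I) (f : F) :
    ∏ i, τ i f = τ i₀ (algebraMap k F (Algebra.norm k f)) := by
  classical
  -- an algebraically closed field containing `L`, made into a `k`-algebra through `τ i₀`
  let E := AlgebraicClosure L
  let j : L →+* E := algebraMap L E
  have hj : Function.Injective j := (algebraMap L E).injective
  let φ : k →+* E := j.comp ((τ i₀).comp (algebraMap k F))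
  let algkE : Algebra k E := φ.toAlgebra
  -- every `τ i` gives a `k`-embedding of `F` into `E`
  let σ : I → (F →ₐ[k] E) := fun i =>
    { toRingHom := j.comp (τ i)
      commutes' := by
        intro a
        change j (τ i (algebraMap k F a)) = j (τ i₀ (algebraMap k F a))
        rw [hagree i i₀ a] }
  have hσ_apply : ∀ (i : I) (x : F), σ i x = j (τ i x) := fun i x => rfl
  have hσ_inj : Function.Injective σ := by
    intro i i' h
    apply hinj
    ext x
    apply hj
    rw [← hσ_apply, ← hσ_apply, h]
  -- there are exactly `[F : k]` such embeddings, so `σ` is a bijection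
  have hsep : Algebra.IsSeparable k F := inferInstance
  have hcard' : Nat.card I = Nat.card (F →ₐ[k] E) := by
    rw [Nat.card_eq_fintype_card, hcard,
      AlgHom.natCard_of_splits k F E (fun _ => IsAlgClosed.splits _)]
  have hσ_bij : Function.Bijective σ :=
    (Nat.bijective_iff_injective_and_card σ).mpr ⟨hσ_inj, hcard'⟩
  let e : I ≃ (F →ₐ[k] E) := Equiv.ofBijective σ hσ_bij
  -- the norm is the product over all embeddings
  have hnorm : algebraMap k E (Algebra.norm k f) = ∏ s : F →ₐ[k] E, s f :=
    Algebra.norm_eq_prod_embeddings k E f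
  apply hj
  rw [map_prod]
  change _ = algebraMap k E (Algebra.norm k f)
  rw [hnorm]
  exact Fintype.prod_equiv e (fun i => j (τ i f)) (fun s => s f) (fun i => rfl)

end Fermat.Agent.S24.Alg
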