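import Fermat.Agent.S24.Alg.ChartPlace

/-!
# S24/A: the norm of an integral function vanishing at a place over `y = 0` is divisible by `y`.
-/

set_option autoImplicit false

noncomputable section

namespace Fermat.Agent.S24.Alg

open AlgebraicCurve IntermediateField KaehlerDifferential IsDedekindDomain

variable {K F : Type*} [Field K] [Field F] [Algebra K F]

namespace NormPosAux

open scoped IntermediateField.algebraAdjoinAdjoin

/-- The norm of an element `b` of the integral closure of `K[y]` comes from an element of `K[y]`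
which is a multiple of `b` in the integral closure. -/
theorem exists_norm_eq [CharZero K] (C : Chart K F) (b : C.B) :
    ∃ (a : C.A) (g : C.B), algebraMap K⟮C.y⟯ F (Algebra.norm K⟮C.y⟯ (b : F)) = (a : F) ∧
      (a : F) = (b : F) * (g : F) := by
  obtain ⟨g, hg⟩ := Algebra.dvd_algebraMap_intNorm_self (A := C.A) (B := C.B) b
  refine ⟨Algebra.intNorm C.A C.B b, g, ?_, ?_⟩
  · have h1 := Algebra.algebraMap_intNorm (A := C.A) (K := K⟮C.y⟯) (L := F) (B := C.B) b
    have h2 : algebraMap C.B F b = (b : F) := rfl
    rw [h2] at h1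
    rw [← h1]
    rfl
  · have := congrArg (fun x : C.B => (x : F)) hg
    simpa using this

/-- The statement of `norm_eq_mul_aeval` for a bundled chart. -/
theorem norm_eq_mul_aeval_chart [CharZero K] (C : Chart K F)
    {f : F} (hf : IsIntegral C.A f)
    (v : Place K F) (hv : 0 < v.ord C.y) (hfv : 0 < v.ord f) :
    ∃ p : Polynomial K,
      algebraMap K⟮C.y⟯ F (Algebra.norm K⟮C.y⟯ f) = C.y * Polynomial.aeval C.y p := by
  classical
  have hf0 : f ≠ 0 := by
    rintro rfl
    simp at hfv
  have hy0 : C.y ≠ 0 := by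
    intro h
    rw [h] at hv
    simp at hv
  obtain ⟨a, g, h1, h2⟩ := exists_norm_eq C (⟨f, hf⟩ : C.B)
  change algebraMap K⟮C.y⟯ F (Algebra.norm K⟮C.y⟯ f) = (a : F) at h1
  change (a : F) = f * (g : F) at h2
  -- `a` is a polynomial in `y`
  obtain ⟨q, hq⟩ : ∃ q : Polynomial K, Polynomial.aeval C.y q = (a : F) := by
    have ha : (a : F) ∈ Algebra.adjoin K {C.y} := a.2
    rw [Algebra.adjoin_singleton_eq_range_aeval] at ha
    exact ha
  -- membership in the valuation ring of `v`
  have hfO : f ∈ v.toValuationSubring := (mem_toValuationSubring_iff v hf0).2 hfv.le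
  have hyO : C.y ∈ v.toValuationSubring := (mem_toValuationSubring_iff v hy0).2 hv.le
  have hgO : (g : F) ∈ v.toValuationSubring := C.coe_mem_toValuationSubring v hv.le g
  have hpolyO : ∀ r : Polynomial K, Polynomial.aeval C.y r ∈ v.toValuationSubring := by
    intro r
    have hr : Polynomial.aeval C.y r ∈ Algebra.adjoin K {C.y} := by
      rw [Algebra.adjoin_singleton_eq_range_aeval]
      exact ⟨r, rfl⟩
    exact C.coe_mem_toValuationSubring v hv.le (algebraMap C.A C.B ⟨_, hr⟩)
  have hfm : (⟨f, hfO⟩ : v.toValuationSubring) ∈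
      IsLocalRing.maximalIdeal v.toValuationSubring :=
    (mem_maximalIdeal_iff v _).2 (Or.inr hfv)
  have hym : (⟨C.y, hyO⟩ : v.toValuationSubring) ∈
      IsLocalRing.maximalIdeal v.toValuationSubring :=
    (mem_maximalIdeal_iff v _).2 (Or.inr hv)
  -- split off the constant term of `q`
  have hdec : Polynomial.aeval C.y q =
      C.y * Polynomial.aeval C.y q.divX + algebraMap K F (q.coeff 0) := by
    have h := congrArg (Polynomial.aeval C.y) (Polynomial.divX_mul_X_add q)
    rw [map_add, map_mul, Polynomial.aeval_X, Polynomial.aeval_C] at h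
    rw [← h, mul_comm]
  by_cases hc : q.coeff 0 = 0
  · refine ⟨q.divX, ?_⟩
    rw [h1, ← hq, hdec, hc, map_zero, add_zero]
  · exfalso
    -- otherwise the constant term lies in the maximal ideal of `v`, which is absurd
    have hcO : algebraMap K F (q.coeff 0) ∈ v.toValuationSubring := v.algebraMap_mem' _
    have hcm : (⟨algebraMap K F (q.coeff 0), hcO⟩ : v.toValuationSubring) ∈
        IsLocalRing.maximalIdeal v.toValuationSubring := by
      have heq : (⟨algebraMap K F (q.coeff 0), hcO⟩ : v.toValuationSubring) =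
          ⟨f, hfO⟩ * ⟨(g : F), hgO⟩ - ⟨C.y, hyO⟩ * ⟨_, hpolyO q.divX⟩ := by
        apply Subtype.ext
        change algebraMap K F (q.coeff 0) = f * (g : F) - C.y * Polynomial.aeval C.y q.divX
        rw [← h2, ← hq, hdec]
        ring
      rw [heq]
      exact Ideal.sub_mem _ (Ideal.mul_mem_right _ _ hfm) (Ideal.mul_mem_right _ _ hym)
    rcases (mem_maximalIdeal_iff v _).1 hcm with h0 | hpos
    · have h0' : algebraMap K F (q.coeff 0) = 0 := congrArg Subtype.val h0
      exact hc ((map_eq_zero _).1 h0')
    · change 0 < v.ord (algebraMap K F (q.coeff 0)) at hpos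
      rw [ord_algebraMap] at hpos
      exact lt_irrefl _ hpos

end NormPosAux

/-- If `f` is integral over `K[y]` and vanishes at some place over `y = 0`, then
`N_{F/K(y)}(f) ∈ y K[y]`. -/
theorem norm_eq_mul_aeval [CharZero K] {y : F} (hy : IsCoord K y)
    {f : F} (hf : IsIntegral (Algebra.adjoin K {y}) f)
    (v : Place K F) (hv : 0 < v.ord y) (hfv : 0 < v.ord f) :
    ∃ p : Polynomial K,
      algebraMap K⟮y⟯ F (Algebra.norm K⟮y⟯ f) = y * Polynomial.aeval y p :=
  NormPosAux.norm_eq_mul_aeval_chart ⟨y, hy⟩ hf v hv hfv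

end Fermat.Agent.S24.Alg
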