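import Fermat.Agent.S24.Alg.PlaceOfEmb
import Fermat.Agent.S24.Alg.NormEmb
import Fermat.Agent.S24.Alg.Approx
import Fermat.Agent.S24.Alg.NormPos
import Fermat.Agent.S24.Alg.Fundamental

/-!
# S24/A: counting the places over `y = 0` via embeddings into a discretely valued field.
-/

set_option autoImplicit false

noncomputable section

namespace Fermat.Agent.S24.Alg.CountingAux

/-- Pure combinatorics: a map `pl : I → V` whose fibres are unions of blocks of `r`, with
weights `e` on `V` summing to `|I|` and bounded by the block sizes, has the blocks of `r` as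
its fibres. -/
theorem rel_of_eq {I V : Type*} [Fintype I] [Fintype V] (pl : I → V) (r : Setoid I)
    (e : V → ℕ) (hsum : ∑ v, e v = Fintype.card I)
    (hblock : ∀ i i' : I, r i i' → pl i = pl i')
    (hsurj : Function.Surjective pl)
    (hle : ∀ i : I, e (pl i) ≤ Nat.card {i' : I // r i i'}) :
    ∀ i i' : I, pl i = pl i' → r i i' := by
  classical
  -- the fibre sizes
  have hfib : Fintype.card I = ∑ v, (Finset.univ.filter (fun i => pl i = v)).card := by
    rw [← Finset.card_univ]
    exact Finset.card_eq_sum_card_fiberwise (fun i _ => Finset.mem_univ (pl i))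
  -- the block of `i` as a finset
  have hbcard : ∀ i : I,
      Nat.card {i' : I // r i i'} = (Finset.univ.filter (fun i' => r i i')).card := by
    intro i
    rw [Nat.card_eq_fintype_card, Fintype.card_subtype]
  have hsub : ∀ i : I,
      Finset.univ.filter (fun i' => r i i') ⊆ Finset.univ.filter (fun i' => pl i' = pl i) := by
    intro i i' hi'
    rw [Finset.mem_filter] at hi' ⊢
    exact ⟨Finset.mem_univ _, (hblock i i' hi'.2).symm⟩
  have hle' : ∀ v ∈ (Finset.univ : Finset V),
      e v ≤ (Finset.univ.filter (fun i => pl i = v)).card := by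
    intro v _
    obtain ⟨i, rfl⟩ := hsurj v
    calc e (pl i) ≤ Nat.card {i' : I // r i i'} := hle i
      _ = (Finset.univ.filter (fun i' => r i i')).card := hbcard i
      _ ≤ _ := Finset.card_le_card (hsub i)
  have heq : ∀ v ∈ (Finset.univ : Finset V),
      e v = (Finset.univ.filter (fun i => pl i = v)).card :=
    (Finset.sum_eq_sum_iff_of_le hle').mp (hsum.trans hfib)
  intro i i' hii'
  have hfe : Finset.univ.filter (fun i' => r i i') = Finset.univ.filter (fun i' => pl i' = pl i) := by
    refine Finset.eq_of_subset_of_card_le (hsub i) ?_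
    rw [← heq (pl i) (Finset.mem_univ _), ← hbcard i]
    exact hle i
  have hmem : i' ∈ Finset.univ.filter (fun i' => pl i' = pl i) := by
    rw [Finset.mem_filter]
    exact ⟨Finset.mem_univ _, hii'.symm⟩
  rw [← hfe, Finset.mem_filter] at hmem
  exact hmem.2

end Fermat.Agent.S24.Alg.CountingAux

namespace Fermat.Agent.S24.Alg

open AlgebraicCurve IntermediateField KaehlerDifferential IsDedekindDomain

variable {K F : Type*} [Field K] [Field F] [Algebra K F]

theorem card_places_eq_card_blocks' [IsAlgClosed K] [CharZero K] {y : F} (hy : IsCoord K y)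
    {L : Type*} [Field L] (o : L → ℤ) (ho : IsOrdFn o)
    {I : Type*} [Finite I] (τ : I → F →+* L)
    (hτ_inj : Function.Injective τ)
    (hcard : Nat.card I = Module.finrank K⟮y⟯ F)
    (hτy : ∀ i i' : I, τ i y = τ i' y)
    (hτK : ∀ (i i' : I) (a : K), τ i (algebraMap K F a) = τ i' (algebraMap K F a))
    (m₀ : ℕ) (hm₀ : 0 < m₀)
    (hy_ord : ∀ i : I, o (τ i y) = m₀)
    (hK_ord : ∀ (i : I) (a : K), a ≠ 0 → o (τ i (algebraMap K F a)) = 0)
    (r : Setoid I)
    (h_same : ∀ i i' : I, r i i' → ∀ f : F, o (τ i f) = o (τ i' f))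
    (h_div : ∀ (i : I) (f : F), f ≠ 0 →
      (m₀ : ℤ) ∣ (Nat.card {i' : I // r i i'} : ℤ) * o (τ i f)) :
    Nat.card {v : Place K F // 0 < v.ord y} = Nat.card (Quotient r) := by
  classical
  have : Fintype I := Fintype.ofFinite I
  have : Finite {v : Place K F // 0 < v.ord y} := finite_zeros hy
  have : Fintype {v : Place K F // 0 < v.ord y} := Fintype.ofFinite _
  have hm₀' : (0 : ℤ) < (m₀ : ℤ) := by exact_mod_cast hm₀
  -- (a) the place attached to each embedding
  have hne : ∀ i : I, ∃ f : F, f ≠ 0 ∧ o (τ i f) ≠ 0 := fun i =>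
    ⟨y, hy.ne_zero, by rw [hy_ord]; exact hm₀'.ne'⟩
  choose pl κ hκ hpl using fun i : I => exists_place_of_emb ho (τ i) (hK_ord i) (hne i)
  have hm₀eq : ∀ i : I, (m₀ : ℤ) = κ i * (pl i).ord y := fun i => by
    rw [← hy_ord i]; exact hpl i y hy.ne_zero
  have hple : ∀ i : I, 0 < (pl i).ord y := fun i => by
    have h : 0 < κ i * (pl i).ord y := by rw [← hm₀eq i]; exact hm₀'
    exact (mul_pos_iff_of_pos_left (hκ i)).mp h
  -- (b) blocks are contained in fibres
  have hb : ∀ i i' : I, r i i' → pl i = pl i' := by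
    intro i i' hii'
    refine ext_of_ord_nonneg (fun f hf hnn => ?_)
    have h1 : κ i * (pl i).ord f = κ i' * (pl i').ord f := by
      rw [← hpl i f hf, ← hpl i' f hf]; exact h_same i i' hii' f
    have h2 : 0 ≤ κ i' * (pl i').ord f := by
      rw [← h1]; exact mul_nonneg (hκ i).le hnn
    exact (mul_nonneg_iff_of_pos_left (hκ i')).mp h2
  -- (c) every place over `0` is attained
  have hsurj : ∀ v : Place K F, 0 < v.ord y → ∃ i : I, pl i = v := by
    intro v hv
    obtain ⟨f, hf0, hfint, hfv, hfother⟩ := exists_integral_separating hy v hv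
    obtain ⟨p, hp⟩ := norm_eq_mul_aeval hy hfint v hv hfv
    have : FiniteDimensional K⟮y⟯ F := hy.finite
    have : CharZero K⟮y⟯ := charZero_of_injective_algebraMap (algebraMap K K⟮y⟯).injective
    have hcard' : Fintype.card I = Module.finrank K⟮y⟯ F := by
      rw [← Nat.card_eq_fintype_card]; exact hcard
    have hIne : Nonempty I := by
      have hpos : 0 < Nat.card I := by rw [hcard]; exact hy.finrank_pos
      exact (Nat.card_pos_iff.mp hpos).1
    obtain ⟨i₀⟩ := hIne
    have hprod := prod_eq_map_norm (k := K⟮y⟯) τ hτ_inj hcard'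
      (fun i i' a => agree_on_adjoin (τ i) (τ i') y (hτK i i') (hτy i i') a) i₀ f
    rw [hp] at hprod
    have hnorm : algebraMap K⟮y⟯ F (Algebra.norm K⟮y⟯ f) ≠ 0 := by
      rw [Ne, map_eq_zero_iff _ (algebraMap K⟮y⟯ F).injective]
      exact Algebra.norm_ne_zero_iff.mpr hf0
    rw [hp] at hnorm
    have hp0 : Polynomial.aeval y p ≠ 0 := right_ne_zero_of_mul hnorm
    have hτne : ∀ (i : I) (g : F), g ≠ 0 → τ i g ≠ 0 := fun i g hg =>
      (map_ne_zero (τ i)).mpr hg
    have h1 : 0 < o (τ i₀ (y * Polynomial.aeval y p)) := by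
      rw [map_mul, ho.map_mul _ _ (hτne i₀ y hy.ne_zero) (hτne i₀ _ hp0), hy_ord]
      have h0 := IsOrdFn.aeval_nonneg ho (τ i₀) y (by rw [hy_ord]; exact hm₀'.le) (hK_ord i₀) p hp0
      omega
    rw [← hprod, IsOrdFn.map_prod ho Finset.univ (fun i => τ i f) (fun i _ => hτne i f hf0)] at h1
    obtain ⟨i, -, hi⟩ : ∃ i ∈ (Finset.univ : Finset I), 0 < o (τ i f) := by
      by_contra hcon
      exact absurd h1 (not_lt.mpr (Finset.sum_nonpos
        (fun i hi => not_lt.mp (fun h => hcon ⟨i, hi, h⟩))))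
    refine ⟨i, ?_⟩
    rw [hpl i f hf0] at hi
    have hi' : 0 < (pl i).ord f := (mul_pos_iff_of_pos_left (hκ i)).mp hi
    by_contra hne'
    rw [hfother (pl i) (hple i) hne'] at hi'
    exact lt_irrefl _ hi'
  -- (d) the ramification index is at most the block size
  have hd : ∀ i : I, ((pl i).ord y).toNat ≤ Nat.card {i' : I // r i i'} := by
    intro i
    obtain ⟨π, hπ⟩ := exists_ord_eq_one (pl i)
    have hπ0 : π ≠ 0 := by
      rintro rfl
      rw [Place.ord_zero] at hπ
      exact zero_ne_one hπ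
    have h1 := h_div i π hπ0
    rw [hpl i π hπ0, hπ, mul_one, hm₀eq i, mul_comm (Nat.card _ : ℤ)] at h1
    have h2 : (pl i).ord y ∣ (Nat.card {i' : I // r i i'} : ℤ) :=
      (mul_dvd_mul_iff_left (hκ i).ne').mp h1
    have : Nonempty {i' : I // r i i'} := ⟨⟨i, r.refl' i⟩⟩
    have hpos : 0 < Nat.card {i' : I // r i i'} := Nat.card_pos
    have h3 : (pl i).ord y ≤ (Nat.card {i' : I // r i i'} : ℤ) :=
      Int.le_of_dvd (by exact_mod_cast hpos) h2
    omega
  -- (e), (f) counting
  have hsum : ∑ v : {v : Place K F // 0 < v.ord y}, (v.1.ord y).toNat = Fintype.card I := by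
    have h1 := finsum_ord_zeros hy
    rw [finsum_eq_sum_of_fintype] at h1
    have h2 : ((∑ v : {v : Place K F // 0 < v.ord y}, (v.1.ord y).toNat : ℕ) : ℤ)
        = (Fintype.card I : ℤ) := by
      rw [Nat.cast_sum, ← Nat.card_eq_fintype_card, hcard, ← h1]
      exact Finset.sum_congr rfl (fun v _ => Int.toNat_of_nonneg v.2.le)
    exact_mod_cast h2
  have hinj : ∀ i i' : I, (⟨pl i, hple i⟩ : {v : Place K F // 0 < v.ord y}) = ⟨pl i', hple i'⟩ →
      r i i' :=
    CountingAux.rel_of_eq (fun i => (⟨pl i, hple i⟩ : {v : Place K F // 0 < v.ord y})) r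
      (fun v => (v.1.ord y).toNat) hsum (fun i i' h => Subtype.ext (hb i i' h))
      (fun v => by
        obtain ⟨i, hi⟩ := hsurj v.1 v.2
        exact ⟨i, Subtype.ext hi⟩)
      hd
  symm
  refine Nat.card_congr (Equiv.ofBijective
    (Quotient.lift (fun i => (⟨pl i, hple i⟩ : {v : Place K F // 0 < v.ord y}))
      (fun i i' h => Subtype.ext (hb i i' h))) ⟨?_, ?_⟩)
  · rintro ⟨i⟩ ⟨i'⟩ h
    exact Quotient.sound (hinj i i' h)
  · rintro ⟨v, hv⟩
    obtain ⟨i, rfl⟩ := hsurj v hv
    exact ⟨Quotient.mk r i, rfl⟩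

end Fermat.Agent.S24.Alg
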