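import Fermat.Agent.S24.Alg.Fundamental

/-!
# S24/A: principal divisors have finite support and degree zero.
-/

set_option autoImplicit false

noncomputable section

namespace Fermat.Agent.S24.Alg

open AlgebraicCurve IntermediateField KaehlerDifferential IsDedekindDomain

variable {K F : Type*} [Field K] [Field F] [Algebra K F]

theorem finite_ord_pos [IsAlgClosed K] [CharZero K] {y : F} (hy : IsCoord K y) (f : F) :
    {v : Place K F | 0 < v.ord f}.Finite := by
  by_cases hf : f ∈ Set.range (algebraMap K F)
  · obtain ⟨a, rfl⟩ := hf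
    have hempty : {v : Place K F | 0 < v.ord (algebraMap K F a)} = ∅ := by
      refine Set.eq_empty_of_forall_notMem fun v hv => ?_
      have hv' : 0 < v.ord (algebraMap K F a) := hv
      rw [ord_algebraMap v a] at hv'
      exact lt_irrefl 0 hv'
    rw [hempty]
    exact Set.finite_empty
  · have hfin : Finite {v : Place K F // 0 < v.ord f} := finite_zeros (hy.of_notMem_range hf)
    exact Set.finite_coe_iff.mp hfin

theorem finite_ord_ne_zero [IsAlgClosed K] [CharZero K] {y : F} (hy : IsCoord K y) (f : F) :
    {v : Place K F | v.ord f ≠ 0}.Finite := by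
  refine ((finite_ord_pos hy f).union (finite_ord_pos hy f⁻¹)).subset ?_
  intro v hv
  have hv' : v.ord f ≠ 0 := hv
  have hinv : v.ord f⁻¹ = -v.ord f := Place.ord_inv v f
  rcases lt_or_gt_of_ne hv' with h | h
  · right
    change 0 < v.ord f⁻¹
    rw [hinv]
    exact neg_pos.mpr h
  · left
    exact h

namespace PrincipalDivAux

/-- The sum of the positive parts of the orders of `g` is the sum over the zeros of `g`. -/
theorem finsum_max_ord_eq (g : F) :
    ∑ᶠ v : Place K F, max (v.ord g) 0 = ∑ᶠ v : {v : Place K F // 0 < v.ord g}, v.1.ord g := by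
  classical
  rw [finsum_subtype_eq_finsum_cond (f := fun v : Place K F => v.ord g)
    (fun v : Place K F => 0 < v.ord g)]
  refine finsum_congr fun v => ?_
  rw [finsum_eq_if]
  split_ifs with h
  · exact max_eq_left h.le
  · exact max_eq_right (not_lt.mp h)

theorem finite_support_max_ord [IsAlgClosed K] [CharZero K] {y : F} (hy : IsCoord K y) (g : F) :
    (Function.support fun v : Place K F => max (v.ord g) 0).Finite := by
  refine (finite_ord_pos hy g).subset ?_
  intro v hv
  have hv' : max (v.ord g) 0 ≠ 0 := hv
  change 0 < v.ord g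
  by_contra hcon
  exact hv' (max_eq_right (not_lt.mp hcon))

end PrincipalDivAux

/-- The divisor of a function has degree zero (all places have degree one). -/
theorem finsum_ord_eq_zero [IsAlgClosed K] [CharZero K] {y : F} (hy : IsCoord K y) (f : F) :
    ∑ᶠ v : Place K F, v.ord f = 0 := by
  by_cases hf : f ∈ Set.range (algebraMap K F)
  · obtain ⟨a, rfl⟩ := hf
    have hzero : ∀ v : Place K F, v.ord (algebraMap K F a) = 0 := fun v => ord_algebraMap v a
    rw [finsum_congr hzero]
    exact finsum_zero
  · have hcf : IsCoord K f := hy.of_notMem_range hf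
    have hcf' : IsCoord K f⁻¹ := hcf.inv
    have h1 := finsum_ord_zeros hcf
    have h2 := finsum_ord_zeros hcf'
    rw [finrank_eq_of_adjoin_eq (adjoin_inv f)] at h2
    have hpt : ∀ v : Place K F, v.ord f = max (v.ord f) 0 - max (v.ord f⁻¹) 0 := by
      intro v
      rw [Place.ord_inv]
      rcases le_total (v.ord f) 0 with h | h
      · rw [max_eq_right h, max_eq_left (neg_nonneg.mpr h)]
        ring
      · rw [max_eq_left h, max_eq_right (neg_nonpos.mpr h)]
        ring
    rw [finsum_congr hpt,
      finsum_sub_distrib (PrincipalDivAux.finite_support_max_ord hy f)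
        (PrincipalDivAux.finite_support_max_ord hy f⁻¹),
      PrincipalDivAux.finsum_max_ord_eq, PrincipalDivAux.finsum_max_ord_eq, h1, h2, sub_self]

end Fermat.Agent.S24.Alg
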