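import Fermat.Agent.S24.Alg.DegDx
import Fermat.Agent.S24.Alg.PrincipalDiv

/-!
# S24/A: the Prelude genus from the degree of the divisor of `dx`.
-/

set_option autoImplicit false

noncomputable section

namespace Fermat.Agent.S24.Alg

open AlgebraicCurve IntermediateField KaehlerDifferential IsDedekindDomain

variable {K F : Type*} [Field K] [Field F] [Algebra K F]

namespace GenusAux

/-- If every place has degree one, the degree of a divisor is the finite sum of its values. -/
theorem degree_eq_finsum (hdeg : ∀ v : Place K F, v.deg = 1) (W : Divisor K F) :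
    Divisor.degree W = ∑ᶠ v : Place K F, W v := by
  have h1 : Divisor.degree W = W.sum (fun v n => n * (v.deg : ℤ)) := by
    rw [Divisor.degree, Finsupp.liftAddHom_apply]
    rfl
  have h2 : (Function.support fun v : Place K F => W v) ⊆ (W.support : Set (Place K F)) := by
    intro v hv
    simpa using hv
  rw [h1, Finsupp.sum, finsum_eq_sum_of_support_subset _ h2]
  refine Finset.sum_congr rfl fun v _ => ?_
  rw [hdeg v, Nat.cast_one, mul_one]

/-- The value of the canonical divisor of `u • dx` at a place. -/
theorem canonicalDivisorOf_smul_D_apply [IsAlgClosed K] [CharZero K]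
    [HasCanonicalDivisor (K := K) (F := F)] {x : F} (hx : IsCoord K x) {u : F}
    (hω : u • D K F x ≠ 0) (v : Place K F) :
    canonicalDivisorOf hω v = v.ord u + v.ordDifferential (D K F x) := by
  have hu : u ≠ 0 := by
    rintro rfl
    exact hω (zero_smul _ _)
  rw [canonicalDivisorOf_apply, ordDifferential_smul_of_ne_zero hx v hu (D_ne_zero hx)]

end GenusAux

/-- The degree of the canonical divisor of any nonzero differential equals the degree of the
divisor of `dx`. -/
theorem degree_canonicalDivisorOf [IsAlgClosed K] [CharZero K]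
    [HasCanonicalDivisor (K := K) (F := F)] {x : F} (hx : IsCoord K x)
    (hfin : {v : Place K F | v.ordDifferential (D K F x) ≠ 0}.Finite)
    {ω : Ω[F⁄K]} (hω : ω ≠ 0) :
    Divisor.degree (canonicalDivisorOf hω) = ∑ᶠ v : Place K F, v.ordDifferential (D K F x) := by
  have hmem : ω ∈ Submodule.span F {D K F x} := by
    rw [span_D_eq_top hx]
    exact Submodule.mem_top
  obtain ⟨u, rfl⟩ := Submodule.mem_span_singleton.mp hmem
  rw [GenusAux.degree_eq_finsum (fun v => deg_eq_one hx v)]
  have hval : (fun v : Place K F => canonicalDivisorOf hω v) =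
      fun v : Place K F => v.ord u + v.ordDifferential (D K F x) :=
    funext fun v => GenusAux.canonicalDivisorOf_smul_D_apply hx hω v
  rw [hval, finsum_add_distrib (finite_ord_ne_zero hx u) hfin, finsum_ord_eq_zero hx u,
    zero_add]

theorem genus_eq_of_finsum [IsAlgClosed K] [CharZero K]
    [HasCanonicalDivisor (K := K) (F := F)] {x : F} (hx : IsCoord K x) (g : ℕ)
    (hfin : {v : Place K F | v.ordDifferential (D K F x) ≠ 0}.Finite)
    (h : ∑ᶠ v : Place K F, v.ordDifferential (D K F x) = 2 * (g : ℤ) - 2) :
    genus K F = g := by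
  have hex : ∃ ω : Ω[F⁄K], ω ≠ 0 := ⟨D K F x, D_ne_zero hx⟩
  rw [genus, dif_pos hex, degree_canonicalDivisorOf hx hfin hex.choose_spec, h]
  omega

end Fermat.Agent.S24.Alg
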