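import Fermat.Agent.S24.Alg.Defs

/-!
# S24/A: basic valuation-theoretic facts about `Place K F` (no charts).
Statements are frozen interface for the other component-A files.
-/

set_option autoImplicit false

noncomputable section

namespace Fermat.Agent.S24.Alg

open AlgebraicCurve IntermediateField KaehlerDifferential

variable {K F : Type*} [Field K] [Field F] [Algebra K F] (v : Place K F)

theorem mem_toValuationSubring_iff {f : F} (hf : f ≠ 0) :
    f ∈ v.toValuationSubring ↔ 0 ≤ v.ord f := by
  constructor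
  · intro hmem
    have h1 : v.adicValuation f ≤ 1 := by
      have h2 := v.adicValuation_coe ⟨f, hmem⟩
      have h3 : v.adicValuation f = v.heightOneSpectrum.intValuation ⟨f, hmem⟩ := h2
      rw [h3]
      exact v.heightOneSpectrum.intValuation_le_one _
    have h0 := v.adicValuation_ne_zero hf
    unfold Place.ord
    rw [neg_nonneg, WithZero.log_le_iff_le_exp h0, WithZero.exp_zero]
    exact h1
  · intro hord
    obtain ⟨π, hπ⟩ := IsDiscreteValuationRing.exists_irreducible v.toValuationSubring
    obtain ⟨u, hu⟩ := v.exists_unit_mul_zpow hf hπ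
    obtain ⟨n, hn⟩ := Int.eq_ofNat_of_zero_le hord
    rw [hu, hn, zpow_natCast]
    exact mul_mem (u : v.toValuationSubring).2 (pow_mem π.2 n)

theorem ord_algebraMap (a : K) : v.ord (algebraMap K F a) = 0 := by
  rcases eq_or_ne a 0 with rfl | ha
  · simp
  · have h1 : algebraMap K F a ≠ 0 := by simpa using ha
    have h2 := (mem_toValuationSubring_iff v h1).mp (v.algebraMap_mem' a)
    have h3 := (mem_toValuationSubring_iff v (inv_ne_zero h1)).mp
      (by rw [← map_inv₀]; exact v.algebraMap_mem' a⁻¹)
    rw [v.ord_inv] at h3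
    omega

theorem ord_neg (f : F) : v.ord (-f) = v.ord f := by
  unfold Place.ord
  rw [Valuation.map_neg]

theorem ord_pow (f : F) (n : ℕ) : v.ord (f ^ n) = n * v.ord f := by
  have h := v.ord_zpow f (n : ℤ)
  rwa [zpow_natCast] at h

theorem ord_div {f g : F} (hf : f ≠ 0) (hg : g ≠ 0) : v.ord (f / g) = v.ord f - v.ord g := by
  rw [div_eq_mul_inv, v.ord_mul hf (inv_ne_zero hg), v.ord_inv]
  ring

theorem ord_add {f g : F} (hf : f ≠ 0) (hg : g ≠ 0) (hfg : f + g ≠ 0) :
    min (v.ord f) (v.ord g) ≤ v.ord (f + g) := by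
  have h := v.adicValuation.map_add f g
  have hf' := v.adicValuation_ne_zero hf
  have hg' := v.adicValuation_ne_zero hg
  have hfg' := v.adicValuation_ne_zero hfg
  unfold Place.ord
  rcases le_max_iff.mp h with h | h
  · have h' := (WithZero.log_le_log hfg' hf').mpr h
    exact (min_le_left _ _).trans (neg_le_neg h')
  · have h' := (WithZero.log_le_log hfg' hg').mpr h
    exact (min_le_right _ _).trans (neg_le_neg h')

theorem ord_sub {f g : F} (hf : f ≠ 0) (hg : g ≠ 0) (hfg : f - g ≠ 0) :
    min (v.ord f) (v.ord g) ≤ v.ord (f - g) := by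
  have h := ord_add v hf (neg_ne_zero.mpr hg) (by rwa [← sub_eq_add_neg])
  rwa [ord_neg, ← sub_eq_add_neg] at h

theorem ord_add_eq_of_lt {f g : F} (hf : f ≠ 0) (h : v.ord f < v.ord g) :
    v.ord (f + g) = v.ord f := by
  rcases eq_or_ne g 0 with rfl | hg
  · rw [add_zero]
  · have hfg : f + g ≠ 0 := by
      intro h0
      have hg' : g = -f := by
        rw [eq_neg_iff_add_eq_zero, add_comm]; exact h0
      rw [hg', ord_neg] at h
      exact lt_irrefl _ h
    have h1 := ord_add v hf hg hfg
    have h2 := ord_sub v hfg hg (by rwa [add_sub_cancel_right])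
    rw [add_sub_cancel_right] at h2
    rw [min_eq_left h.le] at h1
    rcases min_le_iff.mp h2 with h3 | h3
    · exact le_antisymm h3 h1
    · exact absurd (lt_of_lt_of_le h h3) (lt_irrefl _)

/-- Sums of finitely many elements of order `≥ m` have order `≥ m` (if nonzero). -/
theorem ord_sum_ge {ι : Type*} (s : Finset ι) (f : ι → F) (m : ℤ)
    (h : ∀ i ∈ s, f i = 0 ∨ m ≤ v.ord (f i)) (hne : ∑ i ∈ s, f i ≠ 0) :
    m ≤ v.ord (∑ i ∈ s, f i) := by
  classical
  have key : ∀ t : Finset ι, (∀ i ∈ t, f i = 0 ∨ m ≤ v.ord (f i)) →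
      (∑ i ∈ t, f i = 0 ∨ m ≤ v.ord (∑ i ∈ t, f i)) := by
    intro t
    induction t using Finset.induction_on with
    | empty => intro _; left; simp
    | insert a t hat ih =>
      intro ht
      rw [Finset.sum_insert hat]
      have hT := ih (fun i hi => ht i (Finset.mem_insert_of_mem hi))
      have ha := ht a (Finset.mem_insert_self a t)
      rcases ha with ha | ha
      · rw [ha, zero_add]; exact hT
      · rcases hT with hT | hT
        · rw [hT, add_zero]; exact Or.inr ha
        · by_cases h0 : f a + ∑ i ∈ t, f i = 0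
          · exact Or.inl h0
          · right
            by_cases ha0 : f a = 0
            · rw [ha0, zero_add]; exact hT
            · by_cases hT0 : ∑ i ∈ t, f i = 0
              · rw [hT0, add_zero]; exact ha
              · exact (le_min ha hT).trans (ord_add v ha0 hT0 h0)
  exact (key s h).resolve_left hne

theorem exists_ord_eq_one : ∃ π : F, v.ord π = 1 :=
  ⟨_, v.ord_coe_irreducible
    (IsDiscreteValuationRing.exists_irreducible v.toValuationSubring).choose_spec⟩

/-- The Prelude's (private) uniformizer, exposed. -/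
theorem exists_dCoord_eq : ∃ π : F, v.ord π = 1 ∧ v.dCoord = D K F π :=
  ⟨_, v.ord_coe_irreducible
    (IsDiscreteValuationRing.exists_irreducible v.toValuationSubring).choose_spec, rfl⟩

theorem isUnit_iff (a : v.toValuationSubring) : IsUnit a ↔ a ≠ 0 ∧ v.ord (a : F) = 0 := by
  constructor
  · intro ha
    refine ⟨ha.ne_zero, ?_⟩
    have h := v.ord_coe_unit ha.unit
    rwa [IsUnit.unit_spec] at h
  · rintro ⟨ha0, hord⟩
    have haF : (a : F) ≠ 0 := by
      simpa [ne_eq, ZeroMemClass.coe_eq_zero] using ha0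
    rw [← v.adicValuation_coe_eq_one_iff]
    have h0 := v.adicValuation_ne_zero haF
    have hlog : WithZero.log (v.adicValuation (a : F)) = 0 := by
      have h := hord
      unfold Place.ord at h
      exact neg_eq_zero.mp h
    rw [← WithZero.exp_log h0, hlog, WithZero.exp_zero]

theorem mem_maximalIdeal_iff (a : v.toValuationSubring) :
    a ∈ IsLocalRing.maximalIdeal v.toValuationSubring ↔ a = 0 ∨ 0 < v.ord (a : F) := by
  rw [IsLocalRing.mem_maximalIdeal, mem_nonunits_iff, isUnit_iff]
  constructor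
  · intro h
    by_cases ha0 : a = 0
    · exact Or.inl ha0
    · right
      have haF : (a : F) ≠ 0 := by
        simpa [ne_eq, ZeroMemClass.coe_eq_zero] using ha0
      have h1 := (mem_toValuationSubring_iff v haF).mp a.2
      have h2 : v.ord (a : F) ≠ 0 := fun h2 => h ⟨ha0, h2⟩
      omega
  · rintro (h | h) ⟨h1, h2⟩
    · exact h1 h
    · omega

theorem irreducible_of_ord_eq_one {π : v.toValuationSubring} (hπ : v.ord (π : F) = 1) :
    Irreducible π := by
  have hmem : ∀ x : v.toValuationSubring, x ≠ 0 → 0 ≤ v.ord (x : F) := by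
    intro x hx
    have hxF : (x : F) ≠ 0 := by
      simpa [ne_eq, ZeroMemClass.coe_eq_zero] using hx
    exact (mem_toValuationSubring_iff v hxF).mp x.2
  have hπ0 : π ≠ 0 := by
    rintro rfl
    simp at hπ
  rw [irreducible_iff]
  refine ⟨?_, ?_⟩
  · rw [isUnit_iff]
    rintro ⟨_, h⟩
    omega
  · intro a b hab
    have ha0 : a ≠ 0 := by
      rintro rfl
      exact hπ0 (by rw [hab, zero_mul])
    have hb0 : b ≠ 0 := by
      rintro rfl
      exact hπ0 (by rw [hab, mul_zero])
    have haF : (a : F) ≠ 0 := by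
      simpa [ne_eq, ZeroMemClass.coe_eq_zero] using ha0
    have hbF : (b : F) ≠ 0 := by
      simpa [ne_eq, ZeroMemClass.coe_eq_zero] using hb0
    have hsum : v.ord (a : F) + v.ord (b : F) = 1 := by
      rw [← v.ord_mul haF hbF, ← hπ, hab]
      rfl
    have ha := hmem a ha0
    have hb := hmem b hb0
    rw [isUnit_iff, isUnit_iff]
    by_cases h : v.ord (a : F) = 0
    · exact Or.inl ⟨ha0, h⟩
    · exact Or.inr ⟨hb0, by omega⟩

theorem maximalIdeal_eq_span {π : v.toValuationSubring} (hπ : v.ord (π : F) = 1) :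
    IsLocalRing.maximalIdeal v.toValuationSubring = Ideal.span {π} :=
  (irreducible_of_ord_eq_one v hπ).maximalIdeal_eq

/-- Every nonzero `f` is `u * π ^ ord f` with `u` a unit at `v`. -/
theorem exists_eq_mul_zpow {π : F} (hπ : v.ord π = 1) {f : F} (hf : f ≠ 0) :
    ∃ u : F, u ≠ 0 ∧ v.ord u = 0 ∧ f = u * π ^ v.ord f := by
  have hπ0 : π ≠ 0 := by
    rintro rfl
    simp at hπ
  have hp : π ^ v.ord f ≠ 0 := zpow_ne_zero _ hπ0
  refine ⟨f / π ^ v.ord f, div_ne_zero hf hp, ?_, ?_⟩
  · rw [ord_div v hf hp, v.ord_zpow, hπ, mul_one, sub_self]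
  · rw [div_mul_cancel₀ _ hp]

/-- Discrete valuation rings of `F` are maximal: an inclusion of places is an equality. -/
theorem eq_of_le {v v' : Place K F} (h : v.toValuationSubring ≤ v'.toValuationSubring) :
    v = v' := by
  apply Place.ext
  refine le_antisymm h ?_
  intro f hf'
  by_contra hf
  have hf0 : f ≠ 0 := fun h0 => hf (h0 ▸ zero_mem _)
  have hord : v.ord f < 0 := by
    have h1 := (mem_toValuationSubring_iff v hf0).not.mp hf
    omega
  apply v'.ne_top'
  rw [eq_top_iff]
  intro g _
  rcases eq_or_ne g 0 with rfl | hg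
  · exact zero_mem _
  · -- `g = (g / f ^ n) * f ^ n` with `g / f ^ n` integral at `v` for `n` large
    obtain ⟨n, hn⟩ : ∃ n : ℕ, v.ord g + (n : ℤ) * (-v.ord f) ≥ 0 := by
      refine ⟨(-v.ord g).toNat, ?_⟩
      have h1 : ((-v.ord g).toNat : ℤ) ≥ -v.ord g := Int.self_le_toNat _
      have h2 : ((-v.ord g).toNat : ℤ) ≥ 0 := Int.natCast_nonneg _
      nlinarith
    have hfn : f ^ n ≠ 0 := pow_ne_zero n hf0
    have hq : g / f ^ n ∈ v.toValuationSubring := by
      rw [mem_toValuationSubring_iff v (div_ne_zero hg hfn), ord_div v hg hfn, ord_pow]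
      linarith
    have hg' : g = g / f ^ n * f ^ n := (div_mul_cancel₀ g hfn).symm
    rw [hg']
    exact mul_mem (h hq) (pow_mem hf' n)

theorem ext_of_ord_nonneg {v v' : Place K F}
    (h : ∀ f : F, f ≠ 0 → 0 ≤ v.ord f → 0 ≤ v'.ord f) : v = v' := by
  apply eq_of_le
  intro f hf
  rcases eq_or_ne f 0 with rfl | hf0
  · exact zero_mem _
  · exact (mem_toValuationSubring_iff v' hf0).mpr
      (h f hf0 ((mem_toValuationSubring_iff v hf0).mp hf))

/-- The "value" of `f` at `v` is unique. -/
theorem ord_sub_algebraMap_pos_unique {f : F} {a b : K}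
    (ha : 0 < v.ord (f - algebraMap K F a)) (hb : 0 < v.ord (f - algebraMap K F b)) : a = b := by
  by_contra hab
  have ha0 : f - algebraMap K F a ≠ 0 := by
    intro h0
    rw [h0, v.ord_zero] at ha
    exact lt_irrefl _ ha
  have hb0 : f - algebraMap K F b ≠ 0 := by
    intro h0
    rw [h0, v.ord_zero] at hb
    exact lt_irrefl _ hb
  have hsub : (f - algebraMap K F b) - (f - algebraMap K F a) = algebraMap K F (a - b) := by
    rw [map_sub]
    ring
  have hne : (f - algebraMap K F b) - (f - algebraMap K F a) ≠ 0 := by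
    rw [hsub]
    intro h0
    exact hab (sub_eq_zero.mp ((map_eq_zero _).mp h0))
  have h1 := ord_sub v hb0 ha0 hne
  rw [hsub, ord_algebraMap] at h1
  have h2 : 0 < min (v.ord (f - algebraMap K F b)) (v.ord (f - algebraMap K F a)) :=
    lt_min hb ha
  exact absurd (lt_of_lt_of_le h2 h1) (lt_irrefl _)

end Fermat.Agent.S24.Alg
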