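import Fermat.Agent.S24.Alg.DedekindPlace
import Fermat.Agent.S24.Alg.PlaceBasic

/-!
# S24/A: the chart dictionary.  For a chart `C` (coordinate `y`), the places of `F/K` at which
`y` is regular are exactly the maximal ideals of `C.B` (integral closure of `K[y]` in `F`).
-/

set_option autoImplicit false

noncomputable section

namespace Fermat.Agent.S24.Alg

open AlgebraicCurve IntermediateField KaehlerDifferential IsDedekindDomain

variable {K F : Type*} [Field K] [Field F] [Algebra K F]

namespace ChartPlaceAux

variable (C : Chart K F)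

theorem aeval_mem (p : Polynomial K) : Polynomial.aeval C.y p ∈ C.A := by
  change _ ∈ Algebra.adjoin K {C.y}
  rw [Algebra.adjoin_singleton_eq_range_aeval]
  exact ⟨p, rfl⟩

/-- The evaluation map `K[X] → K[y]`. -/
def polyHom : Polynomial K →ₐ[K] C.A :=
  (Polynomial.aeval C.y).codRestrict C.A (aeval_mem C)

theorem coe_polyHom (p : Polynomial K) : (polyHom C p : F) = Polynomial.aeval C.y p := rfl

theorem polyHom_bijective : Function.Bijective (polyHom C) := by
  constructor
  · intro p q hpq
    have h : Polynomial.aeval C.y p = Polynomial.aeval C.y q := congrArg Subtype.val hpq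
    exact transcendental_iff_injective.mp C.isCoord.transcendental h
  · rintro ⟨a, ha⟩
    change a ∈ Algebra.adjoin K {C.y} at ha
    rw [Algebra.adjoin_singleton_eq_range_aeval] at ha
    obtain ⟨p, rfl⟩ := ha
    exact ⟨p, rfl⟩

theorem y_ne_zero : C.y ≠ 0 := by
  intro h
  apply C.isCoord.transcendental
  rw [h]
  exact isAlgebraic_zero

/-- If `y` is regular at `v` then `K[y]` lies in the valuation ring of `v`. -/
theorem mem_of_mem_A (v : Place K F) (hv : 0 ≤ v.ord C.y) {a : F} (ha : a ∈ C.A) :
    a ∈ v.toValuationSubring := by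
  have hy : C.y ∈ v.toValuationSubring := (mem_toValuationSubring_iff v (y_ne_zero C)).mpr hv
  change a ∈ Algebra.adjoin K {C.y} at ha
  induction ha using Algebra.adjoin_induction with
  | mem x hx =>
    rw [Set.mem_singleton_iff] at hx
    rw [hx]
    exact hy
  | algebraMap r => exact v.algebraMap_mem' r
  | add x y _ _ hx hy => exact add_mem hx hy
  | mul x y _ _ hx hy => exact mul_mem hx hy

/-- An element of `F` integral over a valuation subring lies in it. -/
theorem mem_of_isIntegral (O : ValuationSubring F) {x : F} (hx : IsIntegral O x) : x ∈ O := by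
  obtain ⟨y, rfl⟩ := (IsIntegrallyClosed.isIntegral_iff (R := O) (K := F)).mp hx
  exact y.2

end ChartPlaceAux

namespace Chart

variable (C : Chart K F)

/-- `K[X] ≃ₐ[K] K[y]`. -/
def polyEquiv : Polynomial K ≃ₐ[K] C.A :=
  AlgEquiv.ofBijective (ChartPlaceAux.polyHom C) (ChartPlaceAux.polyHom_bijective C)

theorem coe_polyEquiv (p : Polynomial K) : (C.polyEquiv p : F) = Polynomial.aeval C.y p :=
  rfl

theorem yA_ne_zero : C.yA ≠ 0 := by
  intro h
  exact ChartPlaceAux.y_ne_zero C (congrArg Subtype.val h)

theorem yB_ne_zero : C.yB ≠ 0 := by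
  intro h
  exact ChartPlaceAux.y_ne_zero C (congrArg Subtype.val h)

instance instFiniteTypeB [CharZero K] : Algebra.FiniteType K C.B := by
  have h1 : Algebra.FiniteType K C.A :=
    Algebra.FiniteType.equiv (inferInstance : Algebra.FiniteType K (Polynomial K)) C.polyEquiv
  have h2 : Algebra.FiniteType C.A C.B := inferInstance
  exact Algebra.FiniteType.trans h1 h2

/-- If `y` is regular at `v` then the whole integral closure `B` is. -/
theorem coe_mem_toValuationSubring (v : Place K F) (hv : 0 ≤ v.ord C.y) (b : C.B) :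
    (b : F) ∈ v.toValuationSubring := by
  apply ChartPlaceAux.mem_of_isIntegral
  have hb : IsIntegral C.A (b : F) := b.2
  let φ : C.A →+* v.toValuationSubring :=
    (algebraMap C.A F).codRestrict v.toValuationSubring.toSubring
      (fun a => ChartPlaceAux.mem_of_mem_A C v hv a.2)
  have h := IsIntegral.map_of_comp_eq φ (RingHom.id F) (by ext a; rfl) hb
  exact h

theorem exists_heightOneSpectrum [CharZero K] (v : Place K F) (hv : 0 ≤ v.ord C.y) :
    ∃ w : HeightOneSpectrum C.B, (Place.ofHeightOneSpectrum w : Place K F) = v :=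
  exists_eq_ofHeightOneSpectrum v (fun r => C.coe_mem_toValuationSubring v hv r)

theorem ord_y_nonneg [CharZero K] (w : HeightOneSpectrum C.B) :
    0 ≤ (Place.ofHeightOneSpectrum (K := K) w).ord C.y := by
  have h := ord_ofHeightOneSpectrum_algebraMap_nonneg (K := K) (F := F) (R := C.B) w C.yB
  have hy : algebraMap C.B F C.yB = C.y := rfl
  rw [hy] at h
  exact h

theorem ord_y_pos_iff [CharZero K] (w : HeightOneSpectrum C.B) :
    0 < (Place.ofHeightOneSpectrum (K := K) w).ord C.y ↔ C.yB ∈ w.asIdeal := by
  have h := ord_ofHeightOneSpectrum_pos_iff (K := K) (F := F) (R := C.B) (r := C.yB) w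
    C.yB_ne_zero
  have hy : algebraMap C.B F C.yB = C.y := rfl
  rw [hy] at h
  exact h

/-- The places where `y` is regular correspond to the maximal ideals of `B`. -/
def placeEquiv [CharZero K] : HeightOneSpectrum C.B ≃ {v : Place K F // 0 ≤ v.ord C.y} :=
  Equiv.ofBijective
    (fun w => (⟨Place.ofHeightOneSpectrum w, C.ord_y_nonneg w⟩ :
      {v : Place K F // 0 ≤ v.ord C.y}))
    ⟨fun w w' h => ofHeightOneSpectrum_injective (K := K) (F := F) (congrArg Subtype.val h),
      fun v => by
        obtain ⟨w, hw⟩ := C.exists_heightOneSpectrum v.1 v.2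
        exact ⟨w, Subtype.ext hw⟩⟩

theorem placeEquiv_apply [CharZero K] (w : HeightOneSpectrum C.B) :
    (C.placeEquiv w : Place K F) = Place.ofHeightOneSpectrum w :=
  rfl

/-- The places where `y` vanishes correspond to the maximal ideals of `B` containing `y`. -/
def zeroEquiv [CharZero K] :
    {w : HeightOneSpectrum C.B // C.yB ∈ w.asIdeal} ≃ {v : Place K F // 0 < v.ord C.y} :=
  Equiv.ofBijective
    (fun w => (⟨Place.ofHeightOneSpectrum w.1, (C.ord_y_pos_iff w.1).mpr w.2⟩ :
      {v : Place K F // 0 < v.ord C.y}))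
    ⟨fun w w' h => Subtype.ext
        (ofHeightOneSpectrum_injective (K := K) (F := F) (congrArg Subtype.val h)),
      fun v => by
        obtain ⟨w, hw⟩ := C.exists_heightOneSpectrum v.1 v.2.le
        refine ⟨⟨w, (C.ord_y_pos_iff w).mp ?_⟩, Subtype.ext hw⟩
        rw [hw]
        exact v.2⟩

theorem zeroEquiv_apply [CharZero K] (w : {w : HeightOneSpectrum C.B // C.yB ∈ w.asIdeal}) :
    (C.zeroEquiv w : Place K F) = Place.ofHeightOneSpectrum w.1 :=
  rfl

/-- Only finitely many places over `y = 0`. -/
theorem finite_zeros [CharZero K] : Finite {v : Place K F // 0 < v.ord C.y} := by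
  have hne : Ideal.span {C.yB} ≠ (0 : Ideal C.B) := by
    rw [Ne, Ideal.zero_eq_bot, Ideal.span_singleton_eq_bot]
    exact C.yB_ne_zero
  have hfin : {w : HeightOneSpectrum C.B | w.asIdeal ∣ Ideal.span {C.yB}}.Finite :=
    Ideal.finite_factors hne
  have hfin' : Finite {w : HeightOneSpectrum C.B // C.yB ∈ w.asIdeal} := by
    have hset : {w : HeightOneSpectrum C.B | w.asIdeal ∣ Ideal.span {C.yB}} =
        {w : HeightOneSpectrum C.B | C.yB ∈ w.asIdeal} := by
      ext w
      exact Ideal.dvd_span_singleton
    rw [hset] at hfin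
    exact hfin.to_subtype
  exact Finite.of_equiv _ C.zeroEquiv

end Chart

end Fermat.Agent.S24.Alg
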