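import Fermat.Agent.S24.Alg.PlaceBasic

/-!
# S24/A: coordinates (`IsCoord`): change of coordinate, exchange lemma.
-/

set_option autoImplicit false

noncomputable section

namespace Fermat.Agent.S24.Alg.CoordAux

open IntermediateField

variable {K F : Type*} [Field K] [Field F] [Algebra K F]

/-- Equal intermediate fields give equal degrees. -/
theorem finrank_eq_of_eq : ∀ E E' : IntermediateField K F, E = E' →
    Module.finrank E F = Module.finrank E' F := by
  rintro _ _ rfl
  rfl

/-- Finiteness transports along an equality of intermediate fields. -/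
theorem finite_of_eq : ∀ E E' : IntermediateField K F, E = E' →
    FiniteDimensional E F → FiniteDimensional E' F := by
  rintro _ _ rfl h
  exact h

/-- If `F` is finite over `K(y)` then `F` has transcendence degree at most one over `K`. -/
theorem trdeg_le_one (y : F) [FiniteDimensional K⟮y⟯ F] : Algebra.trdeg K F ≤ 1 := by
  have halg1 : Algebra.IsAlgebraic K⟮y⟯ F := inferInstance
  have halg2 : Algebra.IsAlgebraic (Algebra.adjoin K ({y} : Set F)) F :=
    IntermediateField.isAlgebraic_adjoin_iff_top.mp halg1
  have h := Algebra.IsAlgebraic.trdeg_le_cardinalMk K ({y} : Set F)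
  simpa using h

/-- If `F` is finite over `K(y)` and `f` is transcendental over `K`, then `F` is algebraic over
`K(f)`. -/
theorem isAlgebraic_adjoin_of_transcendental (y : F) [FiniteDimensional K⟮y⟯ F] {f : F}
    (hft : Transcendental K f) : Algebra.IsAlgebraic K⟮f⟯ F := by
  have htr : Algebra.trdeg K F ≤ 1 := trdeg_le_one y
  have hind : AlgebraicIndependent K (fun _ : PUnit => f) :=
    algebraicIndependent_unique_type_iff.mpr hft
  have hbasis : IsTranscendenceBasis K (fun _ : PUnit => f) :=
    hind.isTranscendenceBasis_of_trdeg_le_of_finite (by simpa using htr)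
  have h := hbasis.isAlgebraic_field
  have hr : Set.range (fun _ : PUnit => f) = {f} := by
    ext x
    simp [eq_comm]
  rwa [hr] at h

/-- If `F` is finite over `K(y)` then `F` is essentially of finite type over `K`. -/
theorem essFiniteType (y : F) [FiniteDimensional K⟮y⟯ F] : Algebra.EssFiniteType K F := by
  have h1 : Algebra.EssFiniteType K K⟮y⟯ :=
    IntermediateField.essFiniteType_iff.mpr (fg_adjoin_of_finite (Set.finite_singleton y))
  exact Algebra.EssFiniteType.comp K K⟮y⟯ F

end Fermat.Agent.S24.Alg.CoordAux

namespace Fermat.Agent.S24.Alg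

open AlgebraicCurve IntermediateField KaehlerDifferential

variable {K F : Type*} [Field K] [Field F] [Algebra K F]

theorem adjoin_sub_algebraMap (y : F) (c : K) : K⟮y - algebraMap K F c⟯ = K⟮y⟯ := by
  apply le_antisymm
  · rw [adjoin_simple_le_iff]
    exact sub_mem (mem_adjoin_simple_self K y) (IntermediateField.algebraMap_mem _ c)
  · rw [adjoin_simple_le_iff]
    have h := add_mem (mem_adjoin_simple_self K (y - algebraMap K F c))
      (IntermediateField.algebraMap_mem K⟮y - algebraMap K F c⟯ c)
    simpa using h

theorem adjoin_inv (y : F) : K⟮y⁻¹⟯ = K⟮y⟯ := by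
  apply le_antisymm
  · rw [adjoin_simple_le_iff]
    exact inv_mem (mem_adjoin_simple_self K y)
  · rw [adjoin_simple_le_iff]
    have h := inv_mem (mem_adjoin_simple_self K y⁻¹)
    simpa using h

theorem finrank_eq_of_adjoin_eq {y y' : F} (e : K⟮y'⟯ = K⟮y⟯) :
    Module.finrank K⟮y'⟯ F = Module.finrank K⟮y⟯ F :=
  CoordAux.finrank_eq_of_eq _ _ e

theorem IsCoord.of_adjoin_eq {y y' : F} (hy : IsCoord K y) (e : K⟮y'⟯ = K⟮y⟯) :
    IsCoord K y' := by
  refine ⟨?_, CoordAux.finite_of_eq _ _ e.symm hy.finite⟩
  intro halg
  have h1 : Algebra.IsAlgebraic K K⟮y'⟯ := isAlgebraic_adjoin_simple halg.isIntegral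
  have hy_mem : y ∈ K⟮y'⟯ := e ▸ mem_adjoin_simple_self K y
  have h2 : IsAlgebraic K (⟨y, hy_mem⟩ : K⟮y'⟯) := Algebra.IsAlgebraic.isAlgebraic _
  have h3 : IsAlgebraic K (algebraMap K⟮y'⟯ F ⟨y, hy_mem⟩) :=
    (isAlgebraic_algebraMap_iff (algebraMap K⟮y'⟯ F).injective).mpr h2
  exact hy.transcendental h3

theorem IsCoord.sub_algebraMap {y : F} (hy : IsCoord K y) (c : K) :
    IsCoord K (y - algebraMap K F c) :=
  hy.of_adjoin_eq (adjoin_sub_algebraMap y c)

theorem IsCoord.inv {y : F} (hy : IsCoord K y) : IsCoord K y⁻¹ :=
  hy.of_adjoin_eq (adjoin_inv y)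

theorem IsCoord.ne_algebraMap {y : F} (hy : IsCoord K y) (c : K) : y ≠ algebraMap K F c := by
  intro h
  exact hy.transcendental (h ▸ isAlgebraic_algebraMap c)

theorem IsCoord.ne_zero {y : F} (hy : IsCoord K y) : y ≠ 0 := by
  have h := hy.ne_algebraMap 0
  simpa using h

theorem IsCoord.finrank_pos {y : F} (hy : IsCoord K y) : 0 < Module.finrank K⟮y⟯ F := by
  have := hy.finite
  exact Module.finrank_pos

/-- `F` has characteristic zero if `K` has. -/
theorem charZero_of_charZero (K : Type*) (F : Type*) [Field K] [Field F] [Algebra K F]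
    [CharZero K] : CharZero F :=
  charZero_of_injective_algebraMap (algebraMap K F).injective

/-- Over an algebraically closed field, an element of `F` not in `K` is transcendental. -/
theorem transcendental_of_notMem_range [IsAlgClosed K] {f : F}
    (hf : f ∉ Set.range (algebraMap K F)) : Transcendental K f := by
  intro halg
  apply hf
  have h := minpoly.mem_range_of_degree_eq_one K f
    (IsAlgClosed.degree_eq_one_of_irreducible K (minpoly.irreducible halg.isIntegral))
  simpa using h

/-- **Exchange lemma**: every nonconstant element of a function field in one variable is a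
coordinate. -/
theorem IsCoord.of_notMem_range [IsAlgClosed K] {y : F} (hy : IsCoord K y) {f : F}
    (hf : f ∉ Set.range (algebraMap K F)) : IsCoord K f := by
  have hft : Transcendental K f := transcendental_of_notMem_range hf
  refine ⟨hft, ?_⟩
  have := hy.finite
  have halg : Algebra.IsAlgebraic K⟮f⟯ F := CoordAux.isAlgebraic_adjoin_of_transcendental y hft
  have h2 : Algebra.EssFiniteType K F := CoordAux.essFiniteType y
  have h3 : Algebra.EssFiniteType K⟮f⟯ F := Algebra.EssFiniteType.of_comp K K⟮f⟯ F
  exact Algebra.finite_of_essFiniteType_of_isAlgebraic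

theorem IsCoord.of_ord_ne_zero [IsAlgClosed K] {y : F} (hy : IsCoord K y) (v : Place K F) {f : F}
    (hf : v.ord f ≠ 0) : IsCoord K f := by
  apply hy.of_notMem_range
  rintro ⟨c, rfl⟩
  exact hf (ord_algebraMap v c)

end Fermat.Agent.S24.Alg
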