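import Fermat.Agent.S24.Alg.Defs

/-!
# S24/A: places coming from a Dedekind domain `R ⊆ F` with fraction field `F`
(`Place.ofHeightOneSpectrum`): order formula, injectivity, and the characterisation of the
places containing `R`.
-/

set_option autoImplicit false

noncomputable section

namespace Fermat.Agent.S24.Alg.DedekindPlaceAux

variable {F : Type*} [Field F]

/-- The inverse (in the ambient field) of a unit of a valuation subring lies in the subring. -/
theorem inv_mem_of_isUnit {A : ValuationSubring F} {a : A} (ha : IsUnit a) :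
    ((a : F))⁻¹ ∈ A := by
  obtain ⟨u, rfl⟩ := ha
  have h1 : ((u : A) : F) * (((u⁻¹ : Aˣ) : A) : F) = 1 := by
    rw [← MulMemClass.coe_mul, Units.mul_inv]
    rfl
  have h2 : ((u : A) : F)⁻¹ = (((u⁻¹ : Aˣ) : A) : F) := inv_eq_of_mul_eq_one_right h1
  rw [h2]
  exact Subtype.property _

end Fermat.Agent.S24.Alg.DedekindPlaceAux

namespace Fermat.Agent.S24.Alg

open AlgebraicCurve IntermediateField KaehlerDifferential IsDedekindDomain

variable {K F : Type*} [Field K] [Field F] [Algebra K F]
variable {R : Type*} [CommRing R] [IsDedekindDomain R] [Algebra R F] [IsFractionRing R F]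
  [Algebra K R] [IsScalarTower K R F]

theorem ord_ofHeightOneSpectrum (w : HeightOneSpectrum R) (f : F) :
    (Place.ofHeightOneSpectrum (K := K) w).ord f = -WithZero.log (w.valuation F f) := by
  rcases eq_or_ne f 0 with rfl | hf
  · simp
  set v : Place K F := Place.ofHeightOneSpectrum (K := K) w with hv
  have hint : (w.valuation F).Integers v.toValuationSubring :=
    Valuation.valuationSubring.integers _
  obtain ⟨π, hπ⟩ := IsDiscreteValuationRing.exists_irreducible v.toValuationSubring
  obtain ⟨u, hu⟩ := v.exists_unit_mul_zpow hf hπ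
  have hπval : w.valuation F (π : F) = WithZero.exp (-1 : ℤ) := by
    obtain ⟨ϖ, hϖ⟩ := w.intValuation_exists_uniformizer
    have h1 : w.valuation F (π : F) < 1 := hint.valuation_irreducible_lt_one hπ
    have hπ0 : w.valuation F (π : F) ≠ 0 := by
      rw [Valuation.ne_zero_iff]
      simpa [ne_eq, ZeroMemClass.coe_eq_zero] using hπ.ne_zero
    have hϖmem : algebraMap R F ϖ ∈ v.toValuationSubring := by
      rw [hv, Place.ofHeightOneSpectrum_toValuationSubring, Valuation.mem_valuationSubring_iff]
      exact w.valuation_le_one ϖ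
    have hϖval : w.valuation F (algebraMap R F ϖ) = WithZero.exp (-1 : ℤ) := by
      rw [HeightOneSpectrum.valuation_of_algebraMap, hϖ]
    have hnu : ¬ IsUnit (⟨algebraMap R F ϖ, hϖmem⟩ : v.toValuationSubring) := by
      rw [hint.isUnit_iff_valuation_eq_one]
      show ¬ w.valuation F (algebraMap R F ϖ) = 1
      rw [hϖval]
      decide
    have hmem : (⟨algebraMap R F ϖ, hϖmem⟩ : v.toValuationSubring) ∈
        IsLocalRing.maximalIdeal v.toValuationSubring := hnu
    rw [hπ.maximalIdeal_eq, Ideal.mem_span_singleton] at hmem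
    have h2 := hint.le_of_dvd hmem
    have h2' : WithZero.exp (-1 : ℤ) ≤ w.valuation F (π : F) := by
      rw [← hϖval]; exact h2
    rw [← WithZero.le_log_iff_exp_le hπ0] at h2'
    rw [← WithZero.exp_zero, ← WithZero.log_lt_iff_lt_exp hπ0] at h1
    have h3 : WithZero.log (w.valuation F (π : F)) = -1 := by omega
    rw [← WithZero.exp_log hπ0, h3]
  have huval : w.valuation F ((u : v.toValuationSubring) : F) = 1 := hint.valuation_unit u
  conv_rhs => rw [hu]
  rw [map_mul, huval, one_mul, map_zpow₀, hπval, ← WithZero.exp_zsmul, WithZero.log_exp]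
  simp

theorem ord_ofHeightOneSpectrum_algebraMap (w : HeightOneSpectrum R) {r : R} (hr : r ≠ 0) :
    (Place.ofHeightOneSpectrum (K := K) w).ord (algebraMap R F r) =
      ((Associates.mk w.asIdeal).count (Associates.mk (Ideal.span {r})).factors : ℤ) := by
  rw [ord_ofHeightOneSpectrum, HeightOneSpectrum.valuation_of_algebraMap,
    w.intValuation_if_neg hr, WithZero.log_exp, neg_neg]

theorem ord_ofHeightOneSpectrum_algebraMap_nonneg (w : HeightOneSpectrum R) (r : R) :
    0 ≤ (Place.ofHeightOneSpectrum (K := K) w).ord (algebraMap R F r) := by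
  rcases eq_or_ne r 0 with rfl | hr
  · simp
  · rw [ord_ofHeightOneSpectrum_algebraMap w hr]
    exact Int.natCast_nonneg _

theorem ord_ofHeightOneSpectrum_pos_iff (w : HeightOneSpectrum R) {r : R} (hr : r ≠ 0) :
    0 < (Place.ofHeightOneSpectrum (K := K) w).ord (algebraMap R F r) ↔ r ∈ w.asIdeal := by
  rw [ord_ofHeightOneSpectrum_algebraMap w hr, ← w.intValuation_lt_one_iff_mem,
    w.intValuation_if_neg hr, ← WithZero.exp_zero, WithZero.exp_lt_exp]
  omega

theorem algebraMap_mem_ofHeightOneSpectrum (w : HeightOneSpectrum R) (r : R) :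
    algebraMap R F r ∈ (Place.ofHeightOneSpectrum (K := K) w).toValuationSubring := by
  rw [Place.ofHeightOneSpectrum_toValuationSubring, Valuation.mem_valuationSubring_iff]
  exact w.valuation_le_one r

/-- The valuation ring of `ofHeightOneSpectrum w` is the localization of `R` at `w`. -/
theorem mem_ofHeightOneSpectrum_iff (w : HeightOneSpectrum R) (f : F) :
    f ∈ (Place.ofHeightOneSpectrum (K := K) w).toValuationSubring ↔
      ∃ n d : R, d ∉ w.asIdeal ∧ f * algebraMap R F d = algebraMap R F n := by
  rw [Place.ofHeightOneSpectrum_toValuationSubring, Valuation.mem_valuationSubring_iff]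
  constructor
  · intro h
    obtain ⟨n, d, hnd⟩ := w.exists_primeCompl_mul_eq_of_integer f h
    exact ⟨n, d, d.2, hnd⟩
  · rintro ⟨n, d, hd, hnd⟩
    have hdval : w.valuation F (algebraMap R F d) = 1 :=
      w.valuation_eq_one_iff_notMem.mpr hd
    have hfn : w.valuation F f = w.valuation F (algebraMap R F n) := by
      rw [← hnd, map_mul, hdval, mul_one]
    rw [hfn]
    exact w.valuation_le_one n

theorem ofHeightOneSpectrum_injective :
    Function.Injective
      (fun w : HeightOneSpectrum R => (Place.ofHeightOneSpectrum w : Place K F)) := by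
  intro w₁ w₂ h
  have h' : (w₁.valuation F).valuationSubring = (w₂.valuation F).valuationSubring :=
    congrArg Place.toValuationSubring h
  apply HeightOneSpectrum.eq_of_valuation_isEquiv_valuation (K := F)
  exact (Valuation.isEquiv_iff_valuationSubring _ _).mpr h'

/-- A place whose valuation ring contains `R` comes from a maximal ideal of `R`. -/
theorem exists_eq_ofHeightOneSpectrum (v : Place K F)
    (h : ∀ r : R, algebraMap R F r ∈ v.toValuationSubring) :
    ∃ w : HeightOneSpectrum R, (Place.ofHeightOneSpectrum w : Place K F) = v := by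
  classical
  set φ : R →+* v.toValuationSubring :=
    (algebraMap R F).codRestrict v.toValuationSubring.toSubring h with hφ
  have hφcoe : ∀ r, ((φ r : v.toValuationSubring) : F) = algebraMap R F r := fun r => rfl
  set 𝔭 : Ideal R := (IsLocalRing.maximalIdeal v.toValuationSubring).comap φ with h𝔭
  have hprime : 𝔭.IsPrime := Ideal.comap_isPrime φ _
  have hmem : ∀ r, r ∈ 𝔭 ↔ ¬ IsUnit (φ r) := fun r => by
    rw [h𝔭, Ideal.mem_comap, IsLocalRing.mem_maximalIdeal, mem_nonunits_iff]
  have hne : 𝔭 ≠ ⊥ := by
    intro hbot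
    apply v.ne_top'
    rw [eq_top_iff]
    intro x _
    obtain ⟨n, d, hd, rfl⟩ := IsFractionRing.div_surjective (A := R) x
    have hd0 : d ≠ 0 := nonZeroDivisors.ne_zero hd
    have hdu : IsUnit (φ d) := by
      by_contra hnu
      have hd𝔭 : d ∈ 𝔭 := (hmem d).mpr hnu
      rw [hbot, Ideal.mem_bot] at hd𝔭
      exact hd0 hd𝔭
    have hinv : (algebraMap R F d)⁻¹ ∈ v.toValuationSubring := by
      rw [← hφcoe d]
      exact DedekindPlaceAux.inv_mem_of_isUnit hdu
    rw [div_eq_mul_inv]
    exact v.toValuationSubring.mul_mem _ _ (h n) hinv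
  set w : HeightOneSpectrum R := ⟨𝔭, hprime, hne⟩ with hw
  refine ⟨w, ?_⟩
  apply Place.ext
  have hle : (Place.ofHeightOneSpectrum (K := K) w).toValuationSubring ≤
      v.toValuationSubring := by
    intro f hf
    obtain ⟨n, d, hd, hnd⟩ := (mem_ofHeightOneSpectrum_iff (K := K) w f).mp hf
    have hdu : IsUnit (φ d) := by
      by_contra hnu
      exact hd ((hmem d).mpr hnu)
    have hinv : (algebraMap R F d)⁻¹ ∈ v.toValuationSubring := by
      rw [← hφcoe d]
      exact DedekindPlaceAux.inv_mem_of_isUnit hdu
    have hd0 : algebraMap R F d ≠ 0 := by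
      intro h0
      have : φ d = 0 := Subtype.ext h0
      rw [this] at hdu
      exact not_isUnit_zero hdu
    have hf' : f = algebraMap R F n * (algebraMap R F d)⁻¹ := by
      rw [← hnd, mul_assoc, mul_inv_cancel₀ hd0, mul_one]
    rw [hf']
    exact v.toValuationSubring.mul_mem _ _ (h n) hinv
  exact ValuationSubring.eq_of_le_of_ne_top _ hle v.ne_top'

end Fermat.Agent.S24.Alg
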