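import Fermat.Agent.S24.Basic

/-!
# S24, component A: shared definitions (owner: helper1).  Do not change statements.

* `IsCoord K y`: `y ∈ F` is transcendental over `K` and `F` is finite over `K(y)`.
* `Chart K F`: a bundled coordinate `y`; `C.A = K[y] ⊆ F`, `C.B` = integral closure of `K[y]`
  in `F` (a Dedekind domain with fraction field `F`, finite over `C.A`).
-/

set_option autoImplicit false

noncomputable section

namespace Fermat.Agent.S24.Alg

open AlgebraicCurve IntermediateField KaehlerDifferential IsDedekindDomain
open scoped IntermediateField.algebraAdjoinAdjoin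

/-- `y` is a coordinate of the function field `F/K`: it is transcendental over `K` and `F` is
finite over `K(y)`. -/
structure IsCoord (K : Type*) {F : Type*} [Field K] [Field F] [Algebra K F] (y : F) : Prop where
  transcendental : Transcendental K y
  finite : FiniteDimensional K⟮y⟯ F

/-- A chart of `F/K`: a bundled coordinate. -/
structure Chart (K F : Type*) [Field K] [Field F] [Algebra K F] where
  /-- the coordinate -/
  y : F
  isCoord : IsCoord K y

variable {K F : Type*} [Field K] [Field F] [Algebra K F]

namespace Chart

variable (C : Chart K F)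

/-- The polynomial ring `K[y]` inside `F`. -/
abbrev A : Subalgebra K F := Algebra.adjoin K {C.y}

/-- The integral closure of `K[y]` in `F`. -/
abbrev B : Subalgebra C.A F := integralClosure C.A F

instance instFiniteDimensional : FiniteDimensional K⟮C.y⟯ F := C.isCoord.finite

instance instIsPrincipalIdealRingA : IsPrincipalIdealRing C.A := by
  have h : Algebra.adjoin K {C.y} = (Polynomial.aeval C.y).range :=
    Algebra.adjoin_singleton_eq_range_aeval K C.y
  have hmem : ∀ p : Polynomial K, Polynomial.aeval C.y p ∈ C.A := fun p => by
    change _ ∈ Algebra.adjoin K {C.y}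
    rw [h]
    exact ⟨p, rfl⟩
  let φ : Polynomial K →ₐ[K] C.A := (Polynomial.aeval C.y).codRestrict C.A hmem
  refine IsPrincipalIdealRing.of_surjective φ.toRingHom ?_
  rintro ⟨a, ha⟩
  change a ∈ Algebra.adjoin K {C.y} at ha
  rw [h] at ha
  obtain ⟨p, rfl⟩ := ha
  exact ⟨p, rfl⟩

instance instIsSeparable [CharZero K] : Algebra.IsSeparable K⟮C.y⟯ F := inferInstance

instance instIsDedekindDomainB [CharZero K] : IsDedekindDomain C.B :=
  IsIntegralClosure.isDedekindDomain C.A K⟮C.y⟯ F C.B

instance instIsFractionRingB [CharZero K] : IsFractionRing C.B F :=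
  IsIntegralClosure.isFractionRing_of_finite_extension C.A K⟮C.y⟯ F C.B

instance instFiniteB [CharZero K] : Module.Finite C.A C.B :=
  IsIntegralClosure.finite C.A K⟮C.y⟯ F C.B

/-- The coordinate as an element of `K[y]`. -/
def yA : C.A := ⟨C.y, Algebra.self_mem_adjoin_singleton K C.y⟩

/-- The coordinate as an element of the integral closure. -/
def yB : C.B := algebraMap C.A C.B C.yA

@[simp] theorem coe_yA : (C.yA : F) = C.y := rfl

@[simp] theorem coe_yB : (C.yB : F) = C.y := rfl

end Chart

end Fermat.Agent.S24.Alg
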