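import Fermat.Agent.S24.Alg.OrdDiff
import Fermat.Agent.S24.Alg.Fundamental

/-!
# S24/A: the degree of the divisor of `dx` (Riemann–Hurwitz count).
-/

set_option autoImplicit false

noncomputable section

namespace Fermat.Agent.S24.Alg

open AlgebraicCurve IntermediateField KaehlerDifferential IsDedekindDomain

variable {K F : Type*} [Field K] [Field F] [Algebra K F]

namespace DegDxAux

/-- The set of zeros of a coordinate is finite. -/
theorem finite_zeros_set [IsAlgClosed K] [CharZero K] {y : F} (hy : IsCoord K y) :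
    {v : Place K F | 0 < v.ord y}.Finite :=
  Set.finite_coe_iff.mp (finite_zeros hy)

/-- The fundamental identity as a `Finset` sum. -/
theorem sum_ord_zeros [IsAlgClosed K] [CharZero K] {y : F} (hy : IsCoord K y) :
    ∑ v ∈ (finite_zeros_set hy).toFinset, v.ord y = (Module.finrank K⟮y⟯ F : ℤ) := by
  rw [← finsum_ord_zeros hy, ← finsum_mem_eq_finite_toFinset_sum]
  exact (finsum_set_coe_eq_finsum_mem {v : Place K F | 0 < v.ord y}).symm

/-- The number of zeros of a coordinate, as the cardinality of a `Finset`. -/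
theorem card_zeros [IsAlgClosed K] [CharZero K] {y : F} (hy : IsCoord K y) :
    (finite_zeros_set hy).toFinset.card = Nat.card {v : Place K F // 0 < v.ord y} :=
  (Nat.card_eq_card_finite_toFinset (finite_zeros_set hy)).symm

/-- `∑_{v | y = 0} (ord_v y - 1) = [F : K(y)] - #{v | y = 0}`. -/
theorem sum_ord_sub_one_zeros [IsAlgClosed K] [CharZero K] {y : F} (hy : IsCoord K y) :
    ∑ v ∈ (finite_zeros_set hy).toFinset, (v.ord y - 1) =
      (Module.finrank K⟮y⟯ F : ℤ) - (Nat.card {v : Place K F // 0 < v.ord y} : ℤ) := by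
  rw [Finset.sum_sub_distrib, sum_ord_zeros hy, Finset.sum_const, card_zeros hy]
  simp

/-- The poles of `x` are the zeros of `x⁻¹`. -/
theorem poles_eq (x : F) :
    {v : Place K F | v.ord x < 0} = {v : Place K F | 0 < v.ord x⁻¹} := by
  ext v
  simp only [Set.mem_ofPred_eq, Place.ord_inv]
  omega

/-- The set of poles of a coordinate is finite. -/
theorem finite_poles_set [IsAlgClosed K] [CharZero K] {x : F} (hx : IsCoord K x) :
    {v : Place K F | v.ord x < 0}.Finite := by
  rw [poles_eq]
  exact finite_zeros_set hx.inv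

/-- `∑_{v | x = ∞} (ord_v x - 1) = -[F : K(x)] - #{v | x = ∞}`. -/
theorem sum_ord_sub_one_poles [IsAlgClosed K] [CharZero K] {x : F} (hx : IsCoord K x) :
    ∑ v ∈ (finite_poles_set hx).toFinset, (v.ord x - 1) =
      -(Module.finrank K⟮x⟯ F : ℤ) - (Nat.card {v : Place K F // v.ord x < 0} : ℤ) := by
  have h1 : (finite_poles_set hx).toFinset = (finite_zeros_set hx.inv).toFinset := by
    ext v
    simp only [Set.Finite.mem_toFinset, Set.mem_ofPred_eq, Place.ord_inv]
    omega
  have h2 : Nat.card {v : Place K F // v.ord x < 0} =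
      Nat.card {v : Place K F // 0 < v.ord x⁻¹} :=
    Nat.card_congr (Equiv.subtypeEquivRight (fun v => by rw [Place.ord_inv]; omega))
  have h3 := sum_ord_zeros (K := K) (F := F) hx.inv
  rw [finrank_eq_of_adjoin_eq (adjoin_inv x)] at h3
  have h4 : ∀ v ∈ (finite_zeros_set hx.inv).toFinset, v.ord x - 1 = -(v.ord x⁻¹) - 1 :=
    fun v _ => by rw [Place.ord_inv, neg_neg]
  rw [h1, h2, Finset.sum_congr rfl h4, Finset.sum_sub_distrib, Finset.sum_neg_distrib, h3,
    Finset.sum_const, card_zeros hx.inv]
  simp

end DegDxAux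

/-- If there are `[F : K(y)]` places over `y = 0`, then `y` is unramified there. -/
theorem ord_eq_one_of_card_eq' [IsAlgClosed K] [CharZero K] {y : F} (hy : IsCoord K y)
    (hcard : Nat.card {v : Place K F // 0 < v.ord y} = Module.finrank K⟮y⟯ F) :
    ∀ v : Place K F, 0 < v.ord y → v.ord y = 1 := by
  classical
  have h0 : ∑ v ∈ (DegDxAux.finite_zeros_set hy).toFinset, (v.ord y - 1) = 0 := by
    rw [DegDxAux.sum_ord_sub_one_zeros hy, hcard, sub_self]
  have h1 := (Finset.sum_eq_zero_iff_of_nonneg (fun v hv => by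
    have hv' : 0 < v.ord y := by simpa using hv
    omega)).1 h0
  intro v hv
  have h2 := h1 v (by simpa using hv)
  omega

/-- The divisor of `dx` has finite support and degree `∑_{c ∈ S} (n - r_c) - n - r_∞`. -/
theorem finsum_ordDifferential_D [IsAlgClosed K] [CharZero K] {x : F} (hx : IsCoord K x)
    (S : Finset K)
    (hunr : ∀ c : K, c ∉ S → ∀ v : Place K F,
      0 < v.ord (x - algebraMap K F c) → v.ord (x - algebraMap K F c) = 1) :
    {v : Place K F | v.ordDifferential (D K F x) ≠ 0}.Finite ∧
    ∑ᶠ v : Place K F, v.ordDifferential (D K F x) =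
      ∑ c ∈ S, ((Module.finrank K⟮x⟯ F : ℤ)
          - (Nat.card {v : Place K F // 0 < v.ord (x - algebraMap K F c)} : ℤ))
        - (Module.finrank K⟮x⟯ F : ℤ) - (Nat.card {v : Place K F // v.ord x < 0} : ℤ) := by
  classical
  set P : Finset (Place K F) := (DegDxAux.finite_poles_set hx).toFinset with hP
  set Z : K → Finset (Place K F) :=
    fun c => (DegDxAux.finite_zeros_set (hx.sub_algebraMap c)).toFinset with hZ
  have hmemP : ∀ v : Place K F, v ∈ P ↔ v.ord x < 0 := fun v => by
    simp only [hP, Set.Finite.mem_toFinset, Set.mem_ofPred_eq]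
  have hmemZ : ∀ (c : K) (v : Place K F), v ∈ Z c ↔ 0 < v.ord (x - algebraMap K F c) :=
    fun c v => by simp only [hZ, Set.Finite.mem_toFinset, Set.mem_ofPred_eq]
  -- the value of `ord_v (dx)` at a pole
  have hpole : ∀ v ∈ P, v.ordDifferential (D K F x) = v.ord x - 1 := fun v hv => by
    have hv' : v.ord x < 0 := (hmemP v).1 hv
    exact ordDifferential_D hx v (ne_of_lt hv')
  -- the value of `ord_v (dx)` over `x = c`
  have hzero : ∀ c : K, ∀ v ∈ Z c,
      v.ordDifferential (D K F x) = v.ord (x - algebraMap K F c) - 1 := fun c v hv => by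
    have hv' : 0 < v.ord (x - algebraMap K F c) := (hmemZ c v).1 hv
    have hD : D K F (x - algebraMap K F c) = D K F x := by
      rw [map_sub, Derivation.map_algebraMap, sub_zero]
    rw [← hD]
    exact ordDifferential_D hx v (ne_of_gt hv')
  -- the support is contained in the poles and the fibres over `S`
  have hsupp : Function.support (fun v : Place K F => v.ordDifferential (D K F x)) ⊆
      ↑(P ∪ S.biUnion Z) := by
    intro v hv
    rw [Function.mem_support] at hv
    rw [Finset.mem_coe, Finset.mem_union]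
    by_cases hvx : v.ord x < 0
    · exact Or.inl ((hmemP v).2 hvx)
    · right
      have hmem : x ∈ v.toValuationSubring :=
        (mem_toValuationSubring_iff v hx.ne_zero).2 (not_lt.1 hvx)
      obtain ⟨a, ha | ha⟩ := exists_sub_algebraMap_ord_pos hx v hmem
      · exact absurd ha (hx.ne_algebraMap a)
      · rw [Finset.mem_biUnion]
        refine ⟨a, ?_, (hmemZ a v).2 ha⟩
        by_contra haS
        apply hv
        rw [hzero a v ((hmemZ a v).2 ha), hunr a haS v ha, sub_self]
  -- disjointness
  have hdisj1 : Disjoint P (S.biUnion Z) := by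
    rw [Finset.disjoint_biUnion_right]
    intro c _
    rw [Finset.disjoint_left]
    intro v hvP hvZ
    have h1 : v.ord x < 0 := (hmemP v).1 hvP
    have h2 : 0 < v.ord (x - algebraMap K F c) := (hmemZ c v).1 hvZ
    have h3 : v.ord (x + -algebraMap K F c) = v.ord x :=
      ord_add_eq_of_lt v hx.ne_zero (by rw [ord_neg, ord_algebraMap]; exact h1)
    rw [sub_eq_add_neg, h3] at h2
    omega
  have hdisj2 : (S : Set K).PairwiseDisjoint Z := by
    intro c _ c' _ hne
    change Disjoint (Z c) (Z c')
    rw [Finset.disjoint_left]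
    intro v h1 h2
    exact hne (ord_sub_algebraMap_pos_unique v ((hmemZ c v).1 h1) ((hmemZ c' v).1 h2))
  refine ⟨(P ∪ S.biUnion Z).finite_toSet.subset hsupp, ?_⟩
  rw [finsum_eq_sum_of_support_subset _ hsupp, Finset.sum_union hdisj1,
    Finset.sum_biUnion hdisj2, Finset.sum_congr rfl hpole, DegDxAux.sum_ord_sub_one_poles hx]
  have hfib : ∀ c ∈ S, ∑ v ∈ Z c, v.ordDifferential (D K F x) =
      (Module.finrank K⟮x⟯ F : ℤ)
        - (Nat.card {v : Place K F // 0 < v.ord (x - algebraMap K F c)} : ℤ) := fun c _ => by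
    rw [Finset.sum_congr rfl (hzero c), DegDxAux.sum_ord_sub_one_zeros (hx.sub_algebraMap c),
      finrank_eq_of_adjoin_eq (adjoin_sub_algebraMap x c)]
  rw [Finset.sum_congr rfl hfib]
  ring

end Fermat.Agent.S24.Alg
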