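import Fermat.Agent.S24.Alg.ChartPlace
import Fermat.Agent.S24.Alg.Coord

/-!
# S24/A: the valuation ring of a place is essentially of finite type over `K`
(it is a localization of the finitely generated `K`-algebra `C.B` for a suitable chart).
-/

set_option autoImplicit false

noncomputable section

namespace Fermat.Agent.S24.Alg

open AlgebraicCurve IntermediateField KaehlerDifferential IsDedekindDomain

variable {K F : Type*} [Field K] [Field F] [Algebra K F]

namespace EssFiniteAux

/-- The inclusion of the integral closure `C.B` into the valuation ring of a place at which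
the coordinate is regular, as a `K`-algebra homomorphism. -/
def incl (C : Chart K F) (v : Place K F) (hv : 0 ≤ v.ord C.y) :
    C.B →ₐ[K] v.toValuationSubring where
  toFun b := ⟨(b : F), C.coe_mem_toValuationSubring v hv b⟩
  map_one' := rfl
  map_mul' _ _ := rfl
  map_zero' := rfl
  map_add' _ _ := rfl
  commutes' _ := rfl

theorem coe_incl (C : Chart K F) (v : Place K F) (hv : 0 ≤ v.ord C.y) (b : C.B) :
    ((incl C v hv b : v.toValuationSubring) : F) = (b : F) := rfl

/-- The valuation ring of a place at which the coordinate of the chart `C` is regular is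
essentially of finite type over `K`. -/
theorem essFiniteType_of_chart [CharZero K] (C : Chart K F) (v : Place K F)
    (hv : 0 ≤ v.ord C.y) : Algebra.EssFiniteType K v.toValuationSubring := by
  classical
  obtain ⟨w, hw⟩ := C.exists_heightOneSpectrum v hv
  obtain ⟨s, hs⟩ := (Algebra.FiniteType.out : (⊤ : Subalgebra K C.B).FG)
  rw [Algebra.essFiniteType_iff]
  refine ⟨s.image (incl C v hv), ?_⟩
  have hadj : Algebra.adjoin K ((s.image (incl C v hv) : Finset v.toValuationSubring) :
      Set v.toValuationSubring) = (incl C v hv).range := by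
    rw [Finset.coe_image, ← AlgHom.map_adjoin, hs, Algebra.map_top]
  rw [hadj]
  intro f
  have hf : (f : F) ∈ (Place.ofHeightOneSpectrum (K := K) w).toValuationSubring := by
    rw [hw]
    exact f.2
  obtain ⟨n, d, hd, hfd⟩ := (mem_ofHeightOneSpectrum_iff (K := K) w (f : F)).mp hf
  have hd0 : d ≠ 0 := fun h => hd (h ▸ w.asIdeal.zero_mem)
  refine ⟨incl C v hv d, ⟨d, rfl⟩, ?_, ⟨n, ?_⟩⟩
  · rw [isUnit_iff]
    refine ⟨fun h => hd0 ?_, ?_⟩
    · apply Subtype.ext
      have := congrArg (Subtype.val) h
      simpa [coe_incl] using this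
    · have h1 : 0 ≤ (Place.ofHeightOneSpectrum (K := K) w).ord (algebraMap C.B F d) :=
        ord_ofHeightOneSpectrum_algebraMap_nonneg w d
      have h2 : ¬ 0 < (Place.ofHeightOneSpectrum (K := K) w).ord (algebraMap C.B F d) :=
        fun h => hd ((ord_ofHeightOneSpectrum_pos_iff (K := K) w hd0).mp h)
      rw [hw] at h1 h2
      exact le_antisymm (not_lt.mp h2) h1
  · apply Subtype.ext
    exact hfd.symm

end EssFiniteAux

theorem essFiniteType_valuationSubring [CharZero K] {y : F} (hy : IsCoord K y)
    (v : Place K F) : Algebra.EssFiniteType K v.toValuationSubring := by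
  rcases le_total 0 (v.ord y) with h | h
  · exact EssFiniteAux.essFiniteType_of_chart ⟨y, hy⟩ v h
  · refine EssFiniteAux.essFiniteType_of_chart ⟨y⁻¹, hy.inv⟩ v ?_
    change 0 ≤ v.ord y⁻¹
    rw [Place.ord_inv]
    exact neg_nonneg.mpr h

end Fermat.Agent.S24.Alg
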