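import Fermat.Agent.S24.Alg.Defs

/-!
# S24/A: Kähler differentials of a function field in one variable (char 0):
`Ω[F⁄K]` is one-dimensional, spanned by `D y` for every coordinate `y`, and `D y ≠ 0`.
-/

set_option autoImplicit false

noncomputable section

namespace Fermat.Agent.S24.Alg.KaehlerAux

open IntermediateField KaehlerDifferential Polynomial TensorProduct
open scoped IntermediateField.algebraAdjoinAdjoin

variable {K F : Type*} [Field K] [Field F] [Algebra K F]

/-- `F` is formally etale over the subalgebra `K[y]` when `y` is a coordinate. -/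
theorem formallyEtale_adjoin [CharZero K] {y : F} (hy : IsCoord K y) :
    Algebra.FormallyEtale (Algebra.adjoin K {y}) F := by
  have : FiniteDimensional K⟮y⟯ F := hy.finite
  have : Algebra.FormallyEtale (Algebra.adjoin K {y}) K⟮y⟯ :=
    Algebra.FormallyEtale.of_isLocalization (nonZeroDivisors (Algebra.adjoin K {y}))
  have : Algebra.FormallyEtale K⟮y⟯ F := Algebra.FormallyEtale.of_isSeparable _ _
  exact Algebra.FormallyEtale.comp _ K⟮y⟯ _

/-- `F` is formally etale over the polynomial ring `K[X]` via `X ↦ y`, when `y` is a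
coordinate. -/
theorem formallyEtale_aeval [CharZero K] {y : F} (hy : IsCoord K y) :
    letI : Algebra K[X] F := (Polynomial.aeval (R := K) y).toRingHom.toAlgebra
    Algebra.FormallyEtale K[X] F := by
  let : Algebra K[X] F := (Polynomial.aeval (R := K) y).toRingHom.toAlgebra
  have h : Algebra.adjoin K {y} = (Polynomial.aeval y).range :=
    Algebra.adjoin_singleton_eq_range_aeval K y
  have hmem : ∀ p : K[X], Polynomial.aeval y p ∈ Algebra.adjoin K {y} := fun p => by
    rw [h]
    exact ⟨p, rfl⟩
  let φ : K[X] →ₐ[K] Algebra.adjoin K {y} :=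
    (Polynomial.aeval y).codRestrict (Algebra.adjoin K {y}) hmem
  have hφ : Function.Bijective φ := by
    constructor
    · intro p q hpq
      have h1 : Polynomial.aeval y p = Polynomial.aeval y q := congrArg Subtype.val hpq
      exact (transcendental_iff_injective.mp hy.transcendental) h1
    · rintro ⟨a, ha⟩
      rw [h] at ha
      obtain ⟨p, rfl⟩ := ha
      exact ⟨p, rfl⟩
  let : Algebra K[X] (Algebra.adjoin K {y}) := φ.toRingHom.toAlgebra
  have : IsScalarTower K[X] (Algebra.adjoin K {y}) F :=
    IsScalarTower.of_algebraMap_eq (fun p => rfl)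
  have : Algebra.FormallyEtale K[X] (Algebra.adjoin K {y}) :=
    Algebra.FormallyEtale.of_equiv
      (AlgEquiv.ofBijective (Algebra.ofId K[X] (Algebra.adjoin K {y})) hφ)
  have : Algebra.FormallyEtale (Algebra.adjoin K {y}) F := formallyEtale_adjoin hy
  exact Algebra.FormallyEtale.comp K[X] (Algebra.adjoin K {y}) F

/-- For a coordinate `y`, the module of differentials is free of rank one on `D y`. -/
theorem exists_equiv [CharZero K] {y : F} (hy : IsCoord K y) :
    ∃ e : Ω[F⁄K] ≃ₗ[F] F, e (D K F y) = 1 := by
  let : Algebra K[X] F := (Polynomial.aeval (R := K) y).toRingHom.toAlgebra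
  have : IsScalarTower K K[X] F := IsScalarTower.of_algebraMap_eq (fun r => by
    change algebraMap K F r = Polynomial.aeval y (Polynomial.C r)
    simp)
  have : Algebra.FormallyEtale K[X] F := formallyEtale_aeval hy
  let e1 : F ⊗[K[X]] Ω[K[X]⁄K] ≃ₗ[F] Ω[F⁄K] := tensorKaehlerEquivOfFormallyEtale K K[X] F
  let e2 : F ⊗[K[X]] Ω[K[X]⁄K] ≃ₗ[F] F ⊗[K[X]] K[X] :=
    TensorProduct.AlgebraTensorModule.congr (LinearEquiv.refl F F) (polynomialEquiv K)
  let e3 : F ⊗[K[X]] K[X] ≃ₗ[F] F := TensorProduct.AlgebraTensorModule.rid K[X] F F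
  refine ⟨e1.symm.trans (e2.trans e3), ?_⟩
  have hX : algebraMap K[X] F X = y := by
    change Polynomial.aeval y X = y
    simp
  have h1 : e1.symm (D K F y) = 1 ⊗ₜ D K K[X] X := by
    have := tensorKaehlerEquivOfFormallyEtale_symm_D_algebraMap K K[X] F X
    rw [hX] at this
    exact this
  simp only [LinearEquiv.trans_apply, h1, e2, e3]
  simp

end Fermat.Agent.S24.Alg.KaehlerAux

namespace Fermat.Agent.S24.Alg

open AlgebraicCurve IntermediateField KaehlerDifferential

variable {K F : Type*} [Field K] [Field F] [Algebra K F]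

theorem span_D_eq_top [CharZero K] {y : F} (hy : IsCoord K y) :
    Submodule.span F {D K F y} = ⊤ := by
  obtain ⟨e, he⟩ := KaehlerAux.exists_equiv hy
  rw [eq_top_iff]
  intro x _
  rw [Submodule.mem_span_singleton]
  refine ⟨e x, e.injective ?_⟩
  rw [map_smul, he, smul_eq_mul, mul_one]

theorem D_ne_zero [CharZero K] {y : F} (hy : IsCoord K y) : D K F y ≠ 0 := by
  obtain ⟨e, he⟩ := KaehlerAux.exists_equiv hy
  intro h
  rw [h, map_zero] at he
  exact zero_ne_one he

end Fermat.Agent.S24.Alg
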