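import Fermat.Agent.S24.Alg.ChartPlace
import Fermat.Agent.S24.Alg.Coord

/-!
# S24/A: residue fields of places of a function field in one variable over an algebraically
closed field are `K`.
-/

set_option autoImplicit false

noncomputable section

namespace Fermat.Agent.S24.Alg.ResidueAux

open AlgebraicCurve IntermediateField KaehlerDifferential IsDedekindDomain

variable {K F : Type*} [Field K] [Field F] [Algebra K F]

/-- The residue field of the integral closure `C.B` at a maximal ideal is `K`. -/
theorem algebraMap_quotient_surjective [IsAlgClosed K] [CharZero K] (C : Chart K F)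
    (w : HeightOneSpectrum C.B) :
    Function.Surjective (algebraMap K (C.B ⧸ w.asIdeal)) := by
  have hmax : w.asIdeal.IsMaximal := w.isMaximal
  let _ : Field (C.B ⧸ w.asIdeal) := Ideal.Quotient.field w.asIdeal
  have hft : Algebra.FiniteType K (C.B ⧸ w.asIdeal) := inferInstance
  have hfin : Module.Finite K (C.B ⧸ w.asIdeal) :=
    finite_of_finite_type_of_isJacobsonRing K (C.B ⧸ w.asIdeal)
  have hint : Algebra.IsIntegral K (C.B ⧸ w.asIdeal) := Algebra.IsIntegral.of_finite K _
  exact IsAlgClosed.algebraMap_bijective_of_isIntegral.2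

/-- Every element of `C.B` is congruent to a constant modulo a maximal ideal. -/
theorem exists_sub_algebraMap_mem [IsAlgClosed K] [CharZero K] (C : Chart K F)
    (w : HeightOneSpectrum C.B) (b : C.B) :
    ∃ a : K, b - algebraMap K C.B a ∈ w.asIdeal := by
  obtain ⟨a, ha⟩ := algebraMap_quotient_surjective C w (Ideal.Quotient.mk w.asIdeal b)
  refine ⟨a, ?_⟩
  rw [← Ideal.Quotient.eq]
  rw [← ha]
  rfl

/-- Elements of a maximal ideal of `C.B` lie in the maximal ideal of the corresponding place. -/
theorem coe_mem_maximalIdeal [CharZero K] (C : Chart K F) (w : HeightOneSpectrum C.B)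
    {b : C.B} (hb : b ∈ w.asIdeal)
    (hmem : (b : F) ∈ (Place.ofHeightOneSpectrum (K := K) w).toValuationSubring) :
    (⟨(b : F), hmem⟩ : (Place.ofHeightOneSpectrum (K := K) w).toValuationSubring) ∈
      IsLocalRing.maximalIdeal (Place.ofHeightOneSpectrum (K := K) w).toValuationSubring := by
  rw [mem_maximalIdeal_iff]
  by_cases h0 : b = 0
  · left
    subst h0
    rfl
  · right
    exact (ord_ofHeightOneSpectrum_pos_iff (K := K) (F := F) w h0).2 hb

/-- The chart case of the main statement. -/
theorem exists_sub_algebraMap_mem_maximalIdeal [IsAlgClosed K] [CharZero K] (C : Chart K F)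
    (w : HeightOneSpectrum C.B)
    (x : (Place.ofHeightOneSpectrum w : Place K F).toValuationSubring) :
    ∃ a : K, x - algebraMap K (Place.ofHeightOneSpectrum w : Place K F).toValuationSubring a ∈
      IsLocalRing.maximalIdeal (Place.ofHeightOneSpectrum w : Place K F).toValuationSubring := by
  obtain ⟨n, d, hd, hfd⟩ := (mem_ofHeightOneSpectrum_iff (K := K) w (x : F)).1 x.2
  obtain ⟨δ, hδ⟩ := exists_sub_algebraMap_mem C w d
  obtain ⟨ν, hν⟩ := exists_sub_algebraMap_mem C w n
  have hδ0 : δ ≠ 0 := by
    rintro rfl
    apply hd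
    simpa using hδ
  -- elements of the valuation ring
  have hdmem : ((d - algebraMap K C.B δ : C.B) : F) ∈
      (Place.ofHeightOneSpectrum w : Place K F).toValuationSubring :=
    algebraMap_mem_ofHeightOneSpectrum (K := K) w (d - algebraMap K C.B δ)
  have hnmem : ((n - algebraMap K C.B ν : C.B) : F) ∈
      (Place.ofHeightOneSpectrum w : Place K F).toValuationSubring :=
    algebraMap_mem_ofHeightOneSpectrum (K := K) w (n - algebraMap K C.B ν)
  have h1 := coe_mem_maximalIdeal C w hδ hdmem
  have h2 := coe_mem_maximalIdeal C w hν hnmem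
  refine ⟨ν / δ, ?_⟩
  -- x - ν/δ = ((n - ν) - x * (d - δ)) * δ⁻¹
  have key : x - algebraMap K (Place.ofHeightOneSpectrum w : Place K F).toValuationSubring (ν / δ)
      = ((⟨((n - algebraMap K C.B ν : C.B) : F), hnmem⟩ :
            (Place.ofHeightOneSpectrum w : Place K F).toValuationSubring)
          - x * ⟨((d - algebraMap K C.B δ : C.B) : F), hdmem⟩)
        * algebraMap K (Place.ofHeightOneSpectrum w : Place K F).toValuationSubring δ⁻¹ := by
    apply Subtype.ext
    have hδF : algebraMap K F δ ≠ 0 := by
      simpa using hδ0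
    have e1 : ((d - algebraMap K C.B δ : C.B) : F) = (d : F) - algebraMap K F δ := rfl
    have e2 : ((n - algebraMap K C.B ν : C.B) : F) = (n : F) - algebraMap K F ν := rfl
    have e3 : algebraMap C.B F d = (d : F) := rfl
    have e4 : algebraMap C.B F n = (n : F) := rfl
    rw [e3, e4] at hfd
    change (x : F) - algebraMap K F (ν / δ) =
      (((n - algebraMap K C.B ν : C.B) : F) - (x : F) * ((d - algebraMap K C.B δ : C.B) : F))
        * algebraMap K F δ⁻¹
    rw [e1, e2, map_div₀, map_inv₀, ← hfd]
    field_simp
    ring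
  rw [key]
  exact Ideal.mul_mem_right _ _ (Ideal.sub_mem _ h2 (Ideal.mul_mem_left _ _ h1))

end Fermat.Agent.S24.Alg.ResidueAux

namespace Fermat.Agent.S24.Alg

open AlgebraicCurve IntermediateField KaehlerDifferential IsDedekindDomain

variable {K F : Type*} [Field K] [Field F] [Algebra K F]

/-- Every function regular at `v` has a value in `K` at `v`. -/
theorem exists_sub_algebraMap_ord_pos [IsAlgClosed K] [CharZero K] {y : F} (hy : IsCoord K y)
    (v : Place K F) {f : F} (hf : f ∈ v.toValuationSubring) :
    ∃ a : K, f = algebraMap K F a ∨ 0 < v.ord (f - algebraMap K F a) := by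
  -- choose a chart at which `v` is regular
  obtain ⟨C, hC⟩ : ∃ C : Chart K F, 0 ≤ v.ord C.y := by
    by_cases h : 0 ≤ v.ord y
    · exact ⟨⟨y, hy⟩, h⟩
    · refine ⟨⟨y⁻¹, hy.inv⟩, ?_⟩
      change 0 ≤ v.ord y⁻¹
      rw [Place.ord_inv]
      omega
  obtain ⟨w, rfl⟩ := C.exists_heightOneSpectrum v hC
  obtain ⟨a, ha⟩ := ResidueAux.exists_sub_algebraMap_mem_maximalIdeal C w ⟨f, hf⟩
  refine ⟨a, ?_⟩
  rw [mem_maximalIdeal_iff] at ha
  rcases ha with ha | ha
  · left
    have h0 : f - algebraMap K F a = 0 := congrArg Subtype.val ha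
    exact sub_eq_zero.1 h0
  · right
    exact ha

theorem residue_algebraMap_surjective [IsAlgClosed K] [CharZero K] {y : F} (hy : IsCoord K y)
    (v : Place K F) : Function.Surjective (algebraMap K v.ResidueField) := by
  intro r
  obtain ⟨x, rfl⟩ := IsLocalRing.residue_surjective r
  obtain ⟨a, ha⟩ := exists_sub_algebraMap_ord_pos hy v x.2
  refine ⟨a, ?_⟩
  have hmem : x - algebraMap K v.toValuationSubring a ∈
      IsLocalRing.maximalIdeal v.toValuationSubring := by
    rw [mem_maximalIdeal_iff]
    rcases ha with ha | ha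
    · left
      apply Subtype.ext
      simp [ha]
    · right
      exact ha
  rw [IsScalarTower.algebraMap_apply K v.toValuationSubring v.ResidueField a,
    IsLocalRing.ResidueField.algebraMap_eq]
  have h3 : IsLocalRing.residue v.toValuationSubring (x - algebraMap K v.toValuationSubring a)
      = 0 := (IsLocalRing.residue_eq_zero_iff _).2 hmem
  rw [map_sub, sub_eq_zero] at h3
  exact h3.symm

theorem deg_eq_one [IsAlgClosed K] [CharZero K] {y : F} (hy : IsCoord K y) (v : Place K F) :
    v.deg = 1 := by
  have hsurj := residue_algebraMap_surjective hy v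
  have hinj : Function.Injective (algebraMap K v.ResidueField) :=
    (algebraMap K v.ResidueField).injective
  have e : K ≃ₗ[K] v.ResidueField :=
    LinearEquiv.ofBijective (Algebra.linearMap K v.ResidueField) ⟨hinj, hsurj⟩
  unfold Place.deg
  rw [← e.finrank_eq, Module.finrank_self]

end Fermat.Agent.S24.Alg
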