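import Fermat.Agent.S24.Alg.EssFinite
import Fermat.Agent.S24.Alg.Residue
import Fermat.Agent.S24.Alg.Kaehler

/-!
# S24/A: the local computation of differentials at a place.
-/

set_option autoImplicit false

noncomputable section

namespace Fermat.Agent.S24.Alg

open AlgebraicCurve IntermediateField KaehlerDifferential IsDedekindDomain

variable {K F : Type*} [Field K] [Field F] [Algebra K F]

namespace LocalDiffAux

/-- Every element of the valuation ring of `v` is a constant plus a multiple of a
uniformizer. -/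
theorem exists_eq_algebraMap_add_mul [IsAlgClosed K] [CharZero K] {y : F} (hy : IsCoord K y)
    (v : Place K F) (p : v.toValuationSubring) (hp : v.ord (p : F) = 1)
    (a : v.toValuationSubring) :
    ∃ (c : K) (g : v.toValuationSubring),
      a = algebraMap K v.toValuationSubring c + p * g := by
  obtain ⟨c, hc⟩ := exists_sub_algebraMap_ord_pos hy v a.2
  have hmem : a - algebraMap K v.toValuationSubring c ∈
      IsLocalRing.maximalIdeal v.toValuationSubring := by
    rw [mem_maximalIdeal_iff]
    rcases hc with hc | hc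
    · left
      apply Subtype.ext
      simp [hc]
    · right
      simpa using hc
  rw [maximalIdeal_eq_span v hp, Ideal.mem_span_singleton] at hmem
  obtain ⟨g, hg⟩ := hmem
  exact ⟨c, g, by rw [← hg]; ring⟩

/-- The differential of a uniformizer generates the Kaehler differentials of the valuation ring
of a place (Nakayama). -/
theorem span_D_uniformizer_eq_top [IsAlgClosed K] [CharZero K] {y : F} (hy : IsCoord K y)
    (v : Place K F) (p : v.toValuationSubring) (hp : v.ord (p : F) = 1) :
    Submodule.span v.toValuationSubring {D K v.toValuationSubring p} = ⊤ := by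
  have : Algebra.EssFiniteType K v.toValuationSubring := essFiniteType_valuationSubring hy v
  have hfg : (⊤ : Submodule v.toValuationSubring Ω[v.toValuationSubring⁄K]).FG :=
    Module.finite_def.mp inferInstance
  have hmax := maximalIdeal_eq_span v hp
  rw [eq_top_iff]
  refine Submodule.le_of_le_smul_of_le_jacobson_bot
    (I := IsLocalRing.maximalIdeal v.toValuationSubring) hfg
    (IsLocalRing.maximalIdeal_le_jacobson ⊥) ?_
  rw [← KaehlerDifferential.span_range_derivation, Submodule.span_le]
  rintro _ ⟨a, rfl⟩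
  obtain ⟨c, g, rfl⟩ := exists_eq_algebraMap_add_mul hy v p hp a
  rw [map_add, Derivation.map_algebraMap, zero_add, Derivation.leibniz]
  refine Submodule.add_mem _ ?_ ?_
  · refine Submodule.mem_sup_right ?_
    refine Submodule.smul_mem_smul ?_ ?_
    · rw [hmax]
      exact Ideal.mem_span_singleton_self p
    · rw [KaehlerDifferential.span_range_derivation]
      trivial
  · refine Submodule.mem_sup_left ?_
    exact Submodule.smul_mem _ _ (Submodule.mem_span_singleton_self _)

end LocalDiffAux

/-- If `π` is a uniformizer at `v` and `f` is regular at `v`, then `df = h dπ` with `h` regular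
at `v`. -/
theorem D_eq_smul_of_mem [IsAlgClosed K] [CharZero K] {y : F} (hy : IsCoord K y)
    (v : Place K F) {π : F} (hπ : v.ord π = 1) {f : F} (hf : f ∈ v.toValuationSubring) :
    ∃ h : F, h ∈ v.toValuationSubring ∧ D K F f = h • D K F π := by
  have hπ0 : π ≠ 0 := by
    rintro rfl
    simp at hπ
  have hπmem : π ∈ v.toValuationSubring :=
    (mem_toValuationSubring_iff v hπ0).mpr (by rw [hπ]; exact zero_le_one)
  have hspan := LocalDiffAux.span_D_uniformizer_eq_top hy v ⟨π, hπmem⟩ hπ
  have hmem : D K v.toValuationSubring ⟨f, hf⟩ ∈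
      Submodule.span v.toValuationSubring {D K v.toValuationSubring ⟨π, hπmem⟩} := by
    rw [hspan]
    trivial
  obtain ⟨h, hh⟩ := Submodule.mem_span_singleton.mp hmem
  refine ⟨(h : F), h.2, ?_⟩
  have key := congrArg (KaehlerDifferential.map K K v.toValuationSubring F) hh
  rw [map_smul, KaehlerDifferential.map_D, KaehlerDifferential.map_D] at key
  rw [← algebraMap_smul F h (D K F (algebraMap v.toValuationSubring F ⟨π, hπmem⟩))] at key
  exact key.symm

/-- If `π` is a uniformizer at `v` and `ord_v f ≠ 0`, then `df = h dπ` with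
`ord_v h = ord_v f - 1` (characteristic zero). -/
theorem D_eq_smul_of_ord_ne_zero [IsAlgClosed K] [CharZero K] {y : F} (hy : IsCoord K y)
    (v : Place K F) {π : F} (hπ : v.ord π = 1) {f : F} (hf : v.ord f ≠ 0) :
    ∃ h : F, h ≠ 0 ∧ v.ord h = v.ord f - 1 ∧ D K F f = h • D K F π := by
  have hπ0 : π ≠ 0 := by
    rintro rfl
    simp at hπ
  have hf0 : f ≠ 0 := by
    rintro rfl
    simp at hf
  obtain ⟨u, hu0, hu, hfu⟩ := exists_eq_mul_zpow v hπ hf0
  generalize v.ord f = k at hf hfu ⊢
  have humem : u ∈ v.toValuationSubring := (mem_toValuationSubring_iff v hu0).mpr hu.ge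
  obtain ⟨u', hu'mem, hu'⟩ := D_eq_smul_of_mem hy v hπ humem
  have : CharZero F := charZero_of_charZero K F
  have hkF : (k : F) ≠ 0 := Int.cast_ne_zero.mpr hf
  have hordk : v.ord (k : F) = 0 := by
    have hkF' : (k : F) = algebraMap K F (k : K) := (map_intCast (algebraMap K F) k).symm
    rw [hkF']
    exact ord_algebraMap v _
  have hpow0 : π ^ (k - 1) ≠ 0 := zpow_ne_zero _ hπ0
  have hpowk0 : π ^ k ≠ 0 := zpow_ne_zero _ hπ0
  have hs0 : u * ((k : F) * π ^ (k - 1)) ≠ 0 := mul_ne_zero hu0 (mul_ne_zero hkF hpow0)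
  have hords : v.ord (u * ((k : F) * π ^ (k - 1))) = k - 1 := by
    rw [v.ord_mul hu0 (mul_ne_zero hkF hpow0), v.ord_mul hkF hpow0, hu, hordk, v.ord_zpow, hπ]
    ring
  have hD : D K F f = (u * ((k : F) * π ^ (k - 1)) + π ^ k * u') • D K F π := by
    rw [hfu, Derivation.leibniz, Derivation.leibniz_zpow, hu', ← Int.cast_smul_eq_zsmul F k,
      smul_smul, smul_smul, smul_smul, ← add_smul, mul_assoc]
  by_cases hu'0 : u' = 0
  · refine ⟨u * ((k : F) * π ^ (k - 1)), hs0, hords, ?_⟩
    rw [hD, hu'0, mul_zero, add_zero]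
  · have h1 : π ^ k * u' ≠ 0 := mul_ne_zero hpowk0 hu'0
    have hord1 : k ≤ v.ord (π ^ k * u') := by
      rw [v.ord_mul hpowk0 hu'0, v.ord_zpow, hπ, mul_one]
      have := (mem_toValuationSubring_iff v hu'0).mp hu'mem
      linarith
    have hlt : v.ord (u * ((k : F) * π ^ (k - 1))) < v.ord (π ^ k * u') := by
      rw [hords]
      linarith
    refine ⟨u * ((k : F) * π ^ (k - 1)) + π ^ k * u', ?_, ?_, hD⟩
    · intro h0
      have h2 : u * ((k : F) * π ^ (k - 1)) = -(π ^ k * u') := eq_neg_of_add_eq_zero_left h0
      rw [h2, ord_neg] at hlt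
      exact lt_irrefl _ hlt
    · rw [ord_add_eq_of_lt v hs0 hlt, hords]

end Fermat.Agent.S24.Alg
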