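import Fermat.Agent.S24.Alg.LocalDiff

/-!
# S24/A: the Prelude's `ordDifferential` for a function field in one variable.
-/

set_option autoImplicit false

noncomputable section

namespace Fermat.Agent.S24.Alg

open AlgebraicCurve IntermediateField KaehlerDifferential IsDedekindDomain

variable {K F : Type*} [Field K] [Field F] [Algebra K F]

theorem nontrivial_kaehler [CharZero K] {y : F} (hy : IsCoord K y) : Nontrivial Ω[F⁄K] :=
  nontrivial_of_ne _ 0 (D_ne_zero hy)

theorem dCoordGenerates [IsAlgClosed K] [CharZero K] {y : F} (hy : IsCoord K y)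
    (v : Place K F) : v.DCoordGenerates := by
  obtain ⟨π, hπ, hd⟩ := exists_dCoord_eq v
  have hπc : IsCoord K π := hy.of_ord_ne_zero v (by rw [hπ]; exact one_ne_zero)
  exact ⟨by rw [hd]; exact span_D_eq_top hπc⟩

theorem differentialCoeff_ne_zero [IsAlgClosed K] [CharZero K] {y : F} (hy : IsCoord K y)
    (v : Place K F) {ω : Ω[F⁄K]} (hω : ω ≠ 0) : v.differentialCoeff ω ≠ 0 := by
  have := dCoordGenerates hy v
  intro h0
  apply hω
  rw [← v.differentialCoeff_smul_dCoord ω, h0, zero_smul]

theorem ordDifferential_smul_of_ne_zero [IsAlgClosed K] [CharZero K] {y : F}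
    (hy : IsCoord K y) (v : Place K F) {u : F} (hu : u ≠ 0) {ω : Ω[F⁄K]} (hω : ω ≠ 0) :
    v.ordDifferential (u • ω) = v.ord u + v.ordDifferential ω := by
  have := dCoordGenerates hy v
  have := nontrivial_kaehler hy
  exact v.ordDifferential_smul hu (differentialCoeff_ne_zero hy v hω)

/-- `ord_v(df) = ord_v(f) - 1` whenever `ord_v(f) ≠ 0`. -/
theorem ordDifferential_D [IsAlgClosed K] [CharZero K] {y : F} (hy : IsCoord K y)
    (v : Place K F) {f : F} (hf : v.ord f ≠ 0) :
    v.ordDifferential (D K F f) = v.ord f - 1 := by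
  have := dCoordGenerates hy v
  have := nontrivial_kaehler hy
  obtain ⟨π, hπ, hd⟩ := exists_dCoord_eq v
  obtain ⟨h, _, hord, hD⟩ := D_eq_smul_of_ord_ne_zero hy v hπ hf
  have hc : v.differentialCoeff (D K F f) = h :=
    v.differentialCoeff_unique (by rw [hd]; exact hD)
  rw [Place.ordDifferential, hc, hord]

end Fermat.Agent.S24.Alg
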