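import Fermat.Agent.S24.Alg.Defs

/-!
# S24/A: elementary consequences of `IsOrdFn`.
-/

set_option autoImplicit false

noncomputable section

namespace Fermat.Agent.S24.Alg

open AlgebraicCurve IntermediateField KaehlerDifferential

variable {L : Type*} [Field L] {o : L → ℤ}

theorem IsOrdFn.map_neg_one (ho : IsOrdFn o) : o (-1) = 0 := by
  have h1 : o ((-1 : L) * (-1)) = o (-1) + o (-1) :=
    ho.map_mul (-1) (-1) (neg_ne_zero.mpr one_ne_zero) (neg_ne_zero.mpr one_ne_zero)
  have h2 : ((-1 : L) * (-1)) = 1 := by ring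
  rw [h2, ho.map_one] at h1
  omega

theorem IsOrdFn.map_neg (ho : IsOrdFn o) {a : L} (ha : a ≠ 0) : o (-a) = o a := by
  have h1 : o ((-1 : L) * a) = o (-1) + o a :=
    ho.map_mul (-1) a (neg_ne_zero.mpr one_ne_zero) ha
  rw [neg_one_mul, IsOrdFn.map_neg_one ho, zero_add] at h1
  exact h1

theorem IsOrdFn.map_inv (ho : IsOrdFn o) {a : L} (ha : a ≠ 0) : o a⁻¹ = -o a := by
  have h1 : o (a * a⁻¹) = o a + o a⁻¹ := ho.map_mul a a⁻¹ ha (inv_ne_zero ha)
  rw [mul_inv_cancel₀ ha, ho.map_one] at h1
  omega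

theorem IsOrdFn.map_div (ho : IsOrdFn o) {a b : L} (ha : a ≠ 0) (hb : b ≠ 0) :
    o (a / b) = o a - o b := by
  rw [div_eq_mul_inv, ho.map_mul a b⁻¹ ha (inv_ne_zero hb), IsOrdFn.map_inv ho hb]
  ring

theorem IsOrdFn.map_pow (ho : IsOrdFn o) {a : L} (ha : a ≠ 0) (n : ℕ) :
    o (a ^ n) = n * o a := by
  induction n with
  | zero => simp [ho.map_one]
  | succ n ih =>
    rw [pow_succ, ho.map_mul _ _ (pow_ne_zero n ha) ha, ih]
    push_cast
    ring

theorem IsOrdFn.map_zpow (ho : IsOrdFn o) {a : L} (ha : a ≠ 0) (n : ℤ) :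
    o (a ^ n) = n * o a := by
  cases n with
  | ofNat n =>
    rw [Int.ofNat_eq_natCast, zpow_natCast, IsOrdFn.map_pow ho ha]
  | negSucc n =>
    rw [zpow_negSucc, IsOrdFn.map_inv ho (pow_ne_zero _ ha), IsOrdFn.map_pow ho ha, Int.negSucc_eq]
    push_cast
    ring

theorem IsOrdFn.map_prod (ho : IsOrdFn o) {ι : Type*} (s : Finset ι) (f : ι → L)
    (hf : ∀ i ∈ s, f i ≠ 0) : o (∏ i ∈ s, f i) = ∑ i ∈ s, o (f i) := by
  classical
  induction s using Finset.induction_on with
  | empty => simp [ho.map_one]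
  | insert i s his ih =>
    rw [Finset.prod_insert his, Finset.sum_insert his,
      ho.map_mul _ _ (hf i (Finset.mem_insert_self i s))
        (Finset.prod_ne_zero_iff.mpr fun j hj => hf j (Finset.mem_insert_of_mem hj)),
      ih fun j hj => hf j (Finset.mem_insert_of_mem hj)]

theorem IsOrdFn.map_sub (ho : IsOrdFn o) {a b : L} (ha : a ≠ 0) (hb : b ≠ 0)
    (hab : a - b ≠ 0) : min (o a) (o b) ≤ o (a - b) := by
  have h := ho.map_add a (-b) ha (neg_ne_zero.mpr hb) (by rwa [← sub_eq_add_neg])
  rwa [IsOrdFn.map_neg ho hb, ← sub_eq_add_neg] at h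

theorem IsOrdFn.map_add_eq_of_lt (ho : IsOrdFn o) {a b : L} (ha : a ≠ 0) (hb : b ≠ 0)
    (h : o a < o b) : o (a + b) = o a := by
  have hab : a + b ≠ 0 := by
    intro h0
    have hb' : b = -a := by
      rw [eq_neg_iff_add_eq_zero, add_comm]; exact h0
    rw [hb', IsOrdFn.map_neg ho ha] at h
    exact lt_irrefl _ h
  have h1 := ho.map_add a b ha hb hab
  have h2 := IsOrdFn.map_sub ho hab hb (by rwa [add_sub_cancel_right])
  rw [add_sub_cancel_right] at h2
  rw [min_eq_left h.le] at h1
  rcases min_le_iff.mp h2 with h3 | h3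
  · exact le_antisymm h3 h1
  · exact absurd h3 (not_le.mpr h)

/-- Polynomials in an element of nonnegative order (constants having order `0`) have
nonnegative order. -/
theorem IsOrdFn.aeval_nonneg (ho : IsOrdFn o) {K F : Type*} [Field K] [Field F] [Algebra K F]
    (τ : F →+* L) (y : F) (hy : 0 ≤ o (τ y))
    (hK : ∀ a : K, a ≠ 0 → o (τ (algebraMap K F a)) = 0)
    (p : Polynomial K) (hp : Polynomial.aeval y p ≠ 0) :
    0 ≤ o (τ (Polynomial.aeval y p)) := by
  have hτ : ∀ z : F, z ≠ 0 → τ z ≠ 0 := fun z hz => (map_ne_zero τ).mpr hz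
  have key : ∀ q : Polynomial K,
      Polynomial.aeval y q = 0 ∨ 0 ≤ o (τ (Polynomial.aeval y q)) := by
    intro q
    induction q using Polynomial.induction_on with
    | C a =>
      by_cases ha : a = 0
      · left; simp [ha]
      · right; rw [Polynomial.aeval_C, hK a ha]
    | add p q hp hq =>
      rw [map_add]
      by_cases hp0 : Polynomial.aeval y p = 0
      · rw [hp0, zero_add]; exact hq
      by_cases hq0 : Polynomial.aeval y q = 0
      · rw [hq0, add_zero]; exact hp
      by_cases hpq : Polynomial.aeval y p + Polynomial.aeval y q = 0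
      · left; exact hpq
      right
      have hp' := hp.resolve_left hp0
      have hq' := hq.resolve_left hq0
      have h3 := ho.map_add _ _ (hτ _ hp0) (hτ _ hq0) (by rw [← map_add]; exact hτ _ hpq)
      rw [map_add]
      exact le_trans (le_min hp' hq') h3
    | monomial n a h =>
      have e : Polynomial.aeval y (Polynomial.C a * Polynomial.X ^ (n + 1))
          = Polynomial.aeval y (Polynomial.C a * Polynomial.X ^ n) * y := by
        rw [pow_succ, ← mul_assoc, map_mul, Polynomial.aeval_X]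
      rw [e]
      by_cases h0 : Polynomial.aeval y (Polynomial.C a * Polynomial.X ^ n) = 0
      · left; rw [h0, zero_mul]
      by_cases hy0 : y = 0
      · left; rw [hy0, mul_zero]
      right
      rw [map_mul, ho.map_mul _ _ (hτ _ h0) (hτ _ hy0)]
      exact add_nonneg (h.resolve_left h0) hy
  exact (key p).resolve_left hp

end Fermat.Agent.S24.Alg
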