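import Fermat.Agent.S24.Alg.PlaceBasic
import Fermat.Agent.S24.Alg.OrdFn

/-!
# S24/A: the place of `F/K` induced by an embedding of `F` into a field with an order function.
-/

set_option autoImplicit false

noncomputable section

namespace Fermat.Agent.S24.Alg.PlaceOfEmbAux

open AlgebraicCurve

variable {K F : Type*} [Field K] [Field F] [Algebra K F]
variable {L : Type*} [Field L] {o : L → ℤ}

/-- The valuation subring of `F` of the elements of nonnegative order (under `o ∘ τ`). -/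
def valSubring (ho : IsOrdFn o) (τ : F →+* L) : ValuationSubring F where
  carrier := {f | f = 0 ∨ 0 ≤ o (τ f)}
  mul_mem' := by
    intro a b ha hb
    by_cases ha0 : a = 0
    · left; rw [ha0, zero_mul]
    by_cases hb0 : b = 0
    · left; rw [hb0, mul_zero]
    have ha' : 0 ≤ o (τ a) := ha.resolve_left ha0
    have hb' : 0 ≤ o (τ b) := hb.resolve_left hb0
    right
    rw [map_mul, ho.map_mul _ _ ((map_ne_zero τ).mpr ha0) ((map_ne_zero τ).mpr hb0)]
    omega
  one_mem' := by right; rw [map_one, ho.map_one]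
  add_mem' := by
    intro a b ha hb
    by_cases ha0 : a = 0
    · rw [ha0, zero_add]; exact hb
    by_cases hb0 : b = 0
    · rw [hb0, add_zero]; exact ha
    by_cases hab : a + b = 0
    · left; exact hab
    have ha' : 0 ≤ o (τ a) := ha.resolve_left ha0
    have hb' : 0 ≤ o (τ b) := hb.resolve_left hb0
    right
    have h := ho.map_add (τ a) (τ b) ((map_ne_zero τ).mpr ha0) ((map_ne_zero τ).mpr hb0)
      (by rw [← map_add]; exact (map_ne_zero τ).mpr hab)
    rw [map_add]
    exact le_trans (le_min ha' hb') h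
  zero_mem' := Or.inl rfl
  neg_mem' := by
    intro a ha
    by_cases ha0 : a = 0
    · left; rw [ha0, neg_zero]
    right
    rw [map_neg, IsOrdFn.map_neg ho ((map_ne_zero τ).mpr ha0)]
    exact ha.resolve_left ha0
  mem_or_inv_mem' := by
    intro a
    by_cases ha0 : a = 0
    · left; left; exact ha0
    by_cases h : 0 ≤ o (τ a)
    · left; right; exact h
    · right; right
      rw [map_inv₀, IsOrdFn.map_inv ho ((map_ne_zero τ).mpr ha0)]
      omega

theorem mem_valSubring (ho : IsOrdFn o) (τ : F →+* L) (f : F) :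
    f ∈ valSubring ho τ ↔ f = 0 ∨ 0 ≤ o (τ f) := Iff.rfl

theorem nonneg_of_mem (ho : IsOrdFn o) (τ : F →+* L) {f : F} (hf : f ∈ valSubring ho τ)
    (hf0 : f ≠ 0) : 0 ≤ o (τ f) :=
  ((mem_valSubring ho τ f).mp hf).resolve_left hf0

theorem isPrincipalIdealRing_valSubring (ho : IsOrdFn o) (τ : F →+* L) :
    IsPrincipalIdealRing (valSubring ho τ) := by
  classical
  refine ⟨fun J => ?_⟩
  by_cases hJ : J = ⊥
  · rw [hJ]; exact bot_isPrincipal
  obtain ⟨g₁, hg₁J, hg₁0⟩ := Submodule.exists_mem_ne_zero_of_ne_bot hJ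
  have hcoe : ∀ g : valSubring ho τ, g ≠ 0 → (g : F) ≠ 0 := fun g hg h =>
    hg (Subtype.ext h)
  let P : ℕ → Prop := fun n => ∃ g : valSubring ho τ, g ∈ J ∧ g ≠ 0 ∧ o (τ (g : F)) = n
  have hP : ∃ n, P n := by
    have h2 : 0 ≤ o (τ (g₁ : F)) := nonneg_of_mem ho τ g₁.2 (hcoe g₁ hg₁0)
    exact ⟨(o (τ (g₁ : F))).toNat, g₁, hg₁J, hg₁0, (Int.toNat_of_nonneg h2).symm⟩
  obtain ⟨g₀, hg₀J, hg₀0, hg₀⟩ := Nat.find_spec hP
  have hmin : ∀ n, P n → Nat.find hP ≤ n := fun n hn => Nat.find_min' hP hn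
  refine ⟨⟨g₀, ?_⟩⟩
  apply le_antisymm
  · intro g hgJ
    rw [Ideal.submodule_span_eq, Ideal.mem_span_singleton']
    by_cases hg0 : g = 0
    · exact ⟨0, by rw [hg0, zero_mul]⟩
    have h1 : (g : F) ≠ 0 := hcoe g hg0
    have h10 : (g₀ : F) ≠ 0 := hcoe g₀ hg₀0
    have h2 : 0 ≤ o (τ (g : F)) := nonneg_of_mem ho τ g.2 h1
    have h3 : Nat.find hP ≤ (o (τ (g : F))).toNat :=
      hmin _ ⟨g, hgJ, hg0, (Int.toNat_of_nonneg h2).symm⟩
    have h4 : (g : F) / (g₀ : F) ∈ valSubring ho τ := by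
      right
      rw [map_div₀, IsOrdFn.map_div ho ((map_ne_zero τ).mpr h1) ((map_ne_zero τ).mpr h10)]
      omega
    refine ⟨⟨_, h4⟩, ?_⟩
    apply Subtype.ext
    change (g : F) / (g₀ : F) * (g₀ : F) = (g : F)
    exact div_mul_cancel₀ _ h10
  · rw [Ideal.submodule_span_eq, Ideal.span_singleton_le_iff_mem]
    exact hg₀J

/-- The place of `F/K` defined by the order function `o ∘ τ`. -/
def place (ho : IsOrdFn o) (τ : F →+* L)
    (hK : ∀ a : K, a ≠ 0 → o (τ (algebraMap K F a)) = 0)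
    (hne : ∃ f : F, f ≠ 0 ∧ o (τ f) ≠ 0) : Place K F where
  toValuationSubring := valSubring ho τ
  algebraMap_mem' := fun a => by
    by_cases ha : a = 0
    · left; rw [ha, map_zero]
    · right; rw [hK a ha]
  ne_top' := by
    intro htop
    obtain ⟨f, hf, hof⟩ := hne
    have h1 : f ∈ valSubring ho τ := by rw [htop]; exact ValuationSubring.mem_top f
    have h2 : f⁻¹ ∈ valSubring ho τ := by rw [htop]; exact ValuationSubring.mem_top _
    have h1' := nonneg_of_mem ho τ h1 hf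
    have h2' := nonneg_of_mem ho τ h2 (inv_ne_zero hf)
    rw [map_inv₀, IsOrdFn.map_inv ho ((map_ne_zero τ).mpr hf)] at h2'
    omega
  isPrincipalIdealRing' := isPrincipalIdealRing_valSubring ho τ

theorem place_toValuationSubring (ho : IsOrdFn o) (τ : F →+* L)
    (hK : ∀ a : K, a ≠ 0 → o (τ (algebraMap K F a)) = 0)
    (hne : ∃ f : F, f ≠ 0 ∧ o (τ f) ≠ 0) :
    (place ho τ hK hne).toValuationSubring = valSubring ho τ := rfl

/-- `o ∘ τ` is a positive multiple of the order at `place ho τ hK hne`. -/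
theorem exists_pos_mul_ord (ho : IsOrdFn o) (τ : F →+* L)
    (hK : ∀ a : K, a ≠ 0 → o (τ (algebraMap K F a)) = 0)
    (hne : ∃ f : F, f ≠ 0 ∧ o (τ f) ≠ 0) :
    ∃ κ : ℤ, 0 < κ ∧ ∀ f : F, f ≠ 0 → o (τ f) = κ * (place ho τ hK hne).ord f := by
  classical
  have hτ : ∀ {x : F}, x ≠ 0 → τ x ≠ 0 := fun hx => (map_ne_zero τ).mpr hx
  have hmem : ∀ {x : F}, x ∈ (place ho τ hK hne).toValuationSubring → x ≠ 0 → 0 ≤ o (τ x) :=
    fun hx hx0 => nonneg_of_mem ho τ hx hx0
  obtain ⟨π, hπ⟩ :=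
    IsDiscreteValuationRing.exists_irreducible (place ho τ hK hne).toValuationSubring
  have hπ0 : (π : F) ≠ 0 := fun h => hπ.ne_zero (Subtype.ext h)
  have hunit : ∀ u : ((place ho τ hK hne).toValuationSubring)ˣ,
      o (τ ((u : (place ho τ hK hne).toValuationSubring) : F)) = 0 := by
    intro u
    have hu0 : ((u : (place ho τ hK hne).toValuationSubring) : F) ≠ 0 := fun h =>
      u.ne_zero (Subtype.ext h)
    have hui0 : (((u⁻¹ : ((place ho τ hK hne).toValuationSubring)ˣ) :
        (place ho τ hK hne).toValuationSubring) : F) ≠ 0 := fun h =>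
      (u⁻¹).ne_zero (Subtype.ext h)
    have h1 : 0 ≤ o (τ ((u : (place ho τ hK hne).toValuationSubring) : F)) :=
      hmem (u : (place ho τ hK hne).toValuationSubring).2 hu0
    have hinv : (((u⁻¹ : ((place ho τ hK hne).toValuationSubring)ˣ) :
        (place ho τ hK hne).toValuationSubring) : F)
        = ((u : (place ho τ hK hne).toValuationSubring) : F)⁻¹ := by
      have h := congrArg (Subtype.val) u.inv_mul
      have h' : (((u⁻¹ : ((place ho τ hK hne).toValuationSubring)ˣ) :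
          (place ho τ hK hne).toValuationSubring) : F)
          * ((u : (place ho τ hK hne).toValuationSubring) : F) = 1 := h
      exact eq_inv_of_mul_eq_one_left h'
    have h2 : 0 ≤ o (τ (((u⁻¹ : ((place ho τ hK hne).toValuationSubring)ˣ) :
        (place ho τ hK hne).toValuationSubring) : F)) :=
      hmem ((u⁻¹ : ((place ho τ hK hne).toValuationSubring)ˣ) :
        (place ho τ hK hne).toValuationSubring).2 hui0
    rw [hinv, map_inv₀, IsOrdFn.map_inv ho (hτ hu0)] at h2
    omega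
  have hκ0 : 0 ≤ o (τ (π : F)) := hmem π.2 hπ0
  have hκ : 0 < o (τ (π : F)) := by
    rcases hκ0.lt_or_eq with h | h
    · exact h
    · exfalso
      have hinv : (π : F)⁻¹ ∈ (place ho τ hK hne).toValuationSubring := by
        right
        rw [map_inv₀, IsOrdFn.map_inv ho (hτ hπ0), ← h, neg_zero]
      apply hπ.not_isUnit
      refine IsUnit.of_mul_eq_one ⟨_, hinv⟩ ?_
      apply Subtype.ext
      change (π : F) * (π : F)⁻¹ = 1
      exact mul_inv_cancel₀ hπ0
  refine ⟨o (τ (π : F)), hκ, fun f hf => ?_⟩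
  obtain ⟨u, hu⟩ := (place ho τ hK hne).exists_unit_mul_zpow hf hπ
  have hu0 : ((u : (place ho τ hK hne).toValuationSubring) : F) ≠ 0 := fun h =>
    u.ne_zero (Subtype.ext h)
  conv_lhs => rw [hu]
  rw [map_mul, map_zpow₀, ho.map_mul _ _ (hτ hu0) (zpow_ne_zero _ (hτ hπ0)), hunit u,
    IsOrdFn.map_zpow ho (hτ hπ0), zero_add, mul_comm]

end Fermat.Agent.S24.Alg.PlaceOfEmbAux

namespace Fermat.Agent.S24.Alg

open AlgebraicCurve IntermediateField KaehlerDifferential

variable {K F : Type*} [Field K] [Field F] [Algebra K F]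

/-- An embedding `τ : F → L` into a field with an order function `o` that is trivial on the
constants and nontrivial on `F` induces a place `v` of `F/K`; `o ∘ τ` is a positive multiple
of `v.ord`. -/
theorem exists_place_of_emb {L : Type*} [Field L] {o : L → ℤ} (ho : IsOrdFn o) (τ : F →+* L)
    (hK : ∀ a : K, a ≠ 0 → o (τ (algebraMap K F a)) = 0)
    (hne : ∃ f : F, f ≠ 0 ∧ o (τ f) ≠ 0) :
    ∃ (v : Place K F) (κ : ℤ), 0 < κ ∧ ∀ f : F, f ≠ 0 → o (τ f) = κ * v.ord f :=
  ⟨PlaceOfEmbAux.place ho τ hK hne, PlaceOfEmbAux.exists_pos_mul_ord ho τ hK hne⟩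

end Fermat.Agent.S24.Alg
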